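import Fermat.Agent.Pic.Hilb.Ideal
import Fermat.Agent.Pic.NegDiv

/-!
# The bundle of a point of the chart

The ideal of a point of the chart is the ideal sheaf of a bundle on the curve, with a canonical
section of the inverse which has no zero at infinity.
-/

set_option autoImplicit false

noncomputable section

universe u

open scoped TensorProduct

namespace FermatAgent.Pic

/-! ### Ideals given by a dual basis relative to a regular element -/

section Dividers

variable {R : Type u} [CommRing R] {n : ℕ} (χ : R) (a b : Fin n → R)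

/-- The elements whose products with all `b i` are multiples of `χ`. -/
def dividers : Submodule R R where
  carrier := {x | ∀ i, χ ∣ x * b i}
  zero_mem' i := by simp
  add_mem' hx hy i := by rw [add_mul]; exact dvd_add (hx i) (hy i)
  smul_mem' c x hx i := by rw [smul_eq_mul, mul_assoc]; exact (hx i).mul_left c

variable {χ a b}

variable (hχ : IsLeftRegular χ)

/-- The quotient of a product by `χ`. -/
def divQuot (i : Fin n) : dividers χ b →ₗ[R] R where
  toFun x := (x.2 i).choose
  map_add' x y := hχ (by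
    show χ * _ = χ * _
    rw [mul_add, ← (x.2 i).choose_spec, ← (y.2 i).choose_spec, ← ((x + y).2 i).choose_spec,
      Submodule.coe_add, add_mul])
  map_smul' c x := hχ (by
    show χ * _ = χ * _
    rw [RingHom.id_apply, smul_eq_mul, mul_left_comm, ← (x.2 i).choose_spec,
      ← ((c • x).2 i).choose_spec, Submodule.coe_smul, smul_eq_mul, mul_assoc])

theorem mul_divQuot (i : Fin n) (x : dividers χ b) : χ * divQuot hχ i x = x * b i :=
  (x.2 i).choose_spec.symm

include hχ in
theorem sum_divQuot_mul (hsum : ∑ i, a i * b i = χ) (x : dividers χ b) :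
    ∑ i, divQuot hχ i x * a i = x := hχ (by
  show χ * _ = χ * _
  rw [Finset.mul_sum]
  calc ∑ i, χ * (divQuot hχ i x * a i) = ∑ i, (x : R) * (a i * b i) :=
        Finset.sum_congr rfl fun i _ => by rw [← mul_assoc, mul_divQuot]; ring
    _ = χ * x := by rw [← Finset.mul_sum, hsum, mul_comm])

include hχ in
theorem invertible_dividers (hsum : ∑ i, a i * b i = χ) (hab : ∀ i j, χ ∣ a j * b i) :
    Module.Invertible R (dividers χ b) := by
  have hb : ∀ j, b j ∈ dividers χ a := fun j i => by rw [mul_comm]; exact hab j i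
  have ha : ∀ j, a j ∈ dividers χ b := fun j i => hab i j
  let μ₂ : dividers χ b →ₗ[R] dividers χ a →ₗ[R] R :=
    ∑ i, (LinearMap.mul R R).compl₁₂ (divQuot hχ i) (divQuot hχ i)
  have hμ : ∀ x y, χ * μ₂ x y = (x : R) * y := fun x y => hχ (by
    calc χ * (χ * μ₂ x y) = ∑ i, (χ * divQuot hχ i x) * (χ * divQuot hχ i y) := by
          simp only [μ₂, LinearMap.sum_apply, LinearMap.compl₁₂_apply, LinearMap.mul_apply',
            Finset.mul_sum]
          exact Finset.sum_congr rfl fun i _ => by ring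
      _ = ∑ i, (a i * b i) * ((x : R) * y) := Finset.sum_congr rfl fun i _ => by
          rw [mul_divQuot, mul_divQuot]; ring
      _ = χ * ((x : R) * y) := by rw [← Finset.sum_mul, hsum])
  let μ := TensorProduct.lift μ₂
  let z := ∑ i, (⟨a i, ha i⟩ : dividers χ b) ⊗ₜ[R] (⟨b i, hb i⟩ : dividers χ a)
  let inv : R →ₗ[R] dividers χ b ⊗[R] dividers χ a := LinearMap.toSpanSingleton R _ z
  have h1 : μ ∘ₗ inv = LinearMap.id := LinearMap.ext_ring (by
    simp only [inv, LinearMap.comp_apply, LinearMap.toSpanSingleton_apply, one_smul,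
      LinearMap.id_apply, z, μ, map_sum, TensorProduct.lift.tmul]
    exact hχ (by
      show χ * _ = χ * _
      rw [Finset.mul_sum, mul_one]; simp [hμ, hsum]))
  have h2 : inv ∘ₗ μ = LinearMap.id := TensorProduct.ext' fun x y => by
    simp only [inv, μ, LinearMap.comp_apply, LinearMap.toSpanSingleton_apply,
      TensorProduct.lift.tmul, LinearMap.id_apply, z, Finset.smul_sum]
    -- move the second factor across
    have hd : ∀ i, μ₂ x y • (⟨a i, ha i⟩ : dividers χ b) = μ₂ ⟨a i, ha i⟩ y • x := fun i =>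
      Subtype.ext (hχ (by
        show χ * _ = χ * _
        simp only [Submodule.coe_smul, smul_eq_mul, ← mul_assoc, hμ]
        ring))
    calc ∑ i, μ₂ x y • ((⟨a i, ha i⟩ : dividers χ b) ⊗ₜ[R] (⟨b i, hb i⟩ : dividers χ a))
        = ∑ i, x ⊗ₜ[R] (μ₂ ⟨a i, ha i⟩ y • (⟨b i, hb i⟩ : dividers χ a)) :=
          Finset.sum_congr rfl fun i _ => by
            rw [TensorProduct.smul_tmul', hd, TensorProduct.smul_tmul]
      _ = x ⊗ₜ[R] y := by
          rw [← TensorProduct.tmul_sum]
          congr 1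
          refine Subtype.ext (hχ ?_)
          show χ * _ = χ * _
          simp only [AddSubmonoidClass.coe_finsetSum, Submodule.coe_smul, smul_eq_mul,
            Finset.mul_sum, ← mul_assoc, hμ]
          calc ∑ i, a i * (y : R) * b i = ∑ i, (a i * b i) * y :=
                Finset.sum_congr rfl fun i _ => by ring
            _ = _ := by rw [← Finset.sum_mul, hsum]
  exact Module.Invertible.left (LinearEquiv.ofLinearMap μ inv h1 h2)

end Dividers

/-! ### The bundle -/

namespace HilbPoint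

variable {k : Type u} [Field k] {C : Curve2 k} {g : ℕ} {B : Fin g → C.R0}
  {A : Type u} [CommRing A] [Algebra k A] (P : HilbPoint C B A)

/-- The monic element on the overlap. -/
def chi01 : C.S01 A := C.res0 A (Polynomial.aeval (C.xA A) P.chi)

/-- The monic element is a nonzerodivisor on the overlap. -/
theorem chi01_regular : IsLeftRegular P.chi01 := fun z w h => by
  have h' : P.chi01 * (z - w) = 0 := by
    rw [mul_sub, sub_eq_zero]
    exact h
  obtain ⟨N, s, hs⟩ := C.exists_res0 A (z - w)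
  have h0 : Polynomial.aeval (C.xA A) P.chi * s = 0 := C.res0_injective A (by
    rw [map_mul, ← hs, map_zero, ← chi01, mul_left_comm, h', mul_zero])
  have hs0 := C.eq_zero_of_monic_mul A P.chi_monic h0
  rw [hs0, map_zero] at hs
  have h2 := congrArg (C.res1 A (C.yA A) ^ N * ·) hs
  rw [← mul_assoc, ← mul_pow, mul_comm (C.res1 A _), C.tA_mul_yA, one_pow, one_mul, mul_zero] at h2
  exact sub_eq_zero.1 h2

/-- The reversed monic element in the second chart. -/
def chi1 : C.S1 A :=
  ∑ i ∈ Finset.range (P.chi.natDegree + 1), P.chi.coeff i • C.yA A ^ (P.chi.natDegree - i)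

theorem res1_chi1 : C.res1 A P.chi1 = C.res1 A (C.yA A) ^ P.chi.natDegree * P.chi01 := by
  rw [chi1, chi01, Polynomial.aeval_eq_sum_range, map_sum, map_sum, Finset.mul_sum]
  refine Finset.sum_congr rfl fun i hi => ?_
  have hi' : i ≤ P.chi.natDegree := Nat.lt_succ_iff.1 (Finset.mem_range.1 hi)
  rw [map_smul, map_smul, map_pow, map_pow, mul_smul_comm, ← Curve2.tA]
  congr 1
  conv_rhs => rw [← Nat.sub_add_cancel hi', pow_add, mul_assoc, ← mul_pow, mul_comm _ (C.tA A),
    C.tA_mul_yA, one_pow, mul_one]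

theorem isCoprime_chi1 : IsCoprime P.chi1 (C.yA A) := by
  refine ⟨1, -∑ i ∈ Finset.range P.chi.natDegree,
    P.chi.coeff i • C.yA A ^ (P.chi.natDegree - i - 1), ?_⟩
  rw [one_mul, chi1, Finset.sum_range_succ, Nat.sub_self, pow_zero, P.chi_monic.coeff_natDegree,
    one_smul, neg_mul, Finset.sum_mul]
  have h : ∀ i ∈ Finset.range P.chi.natDegree,
      P.chi.coeff i • C.yA A ^ (P.chi.natDegree - i - 1) * C.yA A =
        P.chi.coeff i • C.yA A ^ (P.chi.natDegree - i) := fun i hi => by
    have := Finset.mem_range.1 hi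
    rw [smul_mul_assoc, ← pow_succ]
    congr 2
    omega
  rw [Finset.sum_congr rfl h]
  abel

theorem chi1_mem : P.chi1 ∈ (P.I.map (C.res0 A).toRingHom).comap (C.res1 A).toRingHom := by
  show C.res1 A P.chi1 ∈ P.I.map (C.res0 A).toRingHom
  rw [P.res1_chi1]
  exact Ideal.mul_mem_left _ _ (Ideal.mem_map_of_mem (C.res0 A).toRingHom P.chi_mem)

theorem range_of_chi1_mul {z : C.S01 A} (h : ∃ s, C.res1 A s = C.res1 A P.chi1 * z) :
    ∃ s, C.res1 A s = z := by
  obtain ⟨s, hs⟩ := h
  obtain ⟨L, w, hw⟩ := C.exists_res1 A z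
  obtain ⟨u, v, huv⟩ := P.isCoprime_chi1.pow_right (n := L)
  refine ⟨u * s + v * w, ?_⟩
  have h2 := congrArg (C.res1 A) huv
  simp only [map_add, map_mul, map_pow, map_one] at h2
  rw [map_add, map_mul, map_mul, hs, ← hw, ← mul_assoc, ← mul_assoc, ← add_mul, h2, one_mul]

/-- A bound for the denominators of a family in the second chart. -/
private theorem exists_res1_bound {n : ℕ} (a : Fin n → C.S01 A) :
    ∃ N, ∀ N', N ≤ N' → ∀ i, ∃ s, C.res1 A s = C.res1 A (C.yA A) ^ N' * a i := by
  choose e c hc using fun i => C.exists_res1 A (a i)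
  refine ⟨∑ i, e i, fun N' hN' i => ⟨C.yA A ^ (N' - e i) * c i, ?_⟩⟩
  have hle : e i ≤ N' :=
    (Finset.single_le_sum (f := e) (fun _ _ => Nat.zero_le _) (Finset.mem_univ i)).trans hN'
  rw [map_mul, map_pow, ← hc, ← mul_assoc, ← pow_add, Nat.sub_add_cancel hle]

variable [IsAlgClosed k]

/-- **The bundle of a point of the chart**: some bundle is the ideal sheaf of the divisor cut out
by the ideal of the point. -/
theorem exists_bdl : ∃ E : Bdl C A, E.IsNegDiv P.I := by
  classical
  obtain ⟨n, a₀, b₀, ha₀, hsum₀, hdiv₀⟩ := P.exists_dual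
  set a : Fin n → C.S01 A := fun i => C.res0 A (a₀ i)
  set b : Fin n → C.S01 A := fun i => C.res0 A (b₀ i)
  have hχ := P.chi01_regular
  have hsum : ∑ i, a i * b i = P.chi01 := by
    simp only [a, b, ← map_mul, ← map_sum, hsum₀]; rfl
  have hI : ∀ m ∈ P.I, ∀ i, ∃ s, P.chi01 * C.res0 A s = C.res0 A m * b i := fun m hm i => by
    obtain ⟨s, hs⟩ := hdiv₀ i m hm
    exact ⟨s, by simp only [b, chi01, ← map_mul]; rw [mul_comm m, hs]⟩
  have hab : ∀ i j, P.chi01 ∣ a j * b i := fun i j => by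
    obtain ⟨s, hs⟩ := hI _ (ha₀ j) i
    exact ⟨_, hs.symm⟩
  have hmemI : ∀ m ∈ P.I, C.res0 A m ∈ dividers P.chi01 b := fun m hm i => by
    obtain ⟨s, hs⟩ := hI m hm i
    exact ⟨_, hs.symm⟩
  have := invertible_dividers hχ hsum hab
  set M := dividers P.chi01 b
  have ha : ∀ j, a j ∈ M := fun j i => hab i j
  have hMI : ∀ x : M, (x : C.S01 A) ∈ P.I.map (C.res0 A).toRingHom := fun x => by
    rw [← sum_divQuot_mul hχ hsum x]
    exact Ideal.sum_mem _ fun i _ => Ideal.mul_mem_left _ _
      (Ideal.mem_map_of_mem (C.res0 A).toRingHom (ha₀ i))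
  -- a bound for the denominators in the second chart
  obtain ⟨Na, hNa'⟩ := exists_res1_bound (C := C) a
  obtain ⟨Nb, hNb'⟩ := exists_res1_bound (C := C) b
  set N := Na + Nb
  set Y := C.res1 A (C.yA A) with hY
  have hNa : ∀ i, ∃ s, C.res1 A s = Y ^ N * a i := hNa' N le_self_add
  have hNb : ∀ i, ∃ s, C.res1 A s = Y ^ (N + P.chi.natDegree) * b i :=
    hNb' _ (le_add_right le_add_self)
  obtain ⟨u, v, huv⟩ := P.isCoprime_chi1.pow_right (n := N + N)
  have huv' : C.res1 A u * C.res1 A P.chi1 + C.res1 A v * Y ^ (N + N) = 1 := by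
    rw [hY, ← map_pow, ← map_mul, ← map_mul, ← map_add, huv, map_one]
  let φ0 : M →ₗ[C.S01 A] C.S01 A := C.res1 A u • M.subtype
  let φ : Fin n → M →ₗ[C.S01 A] C.S01 A := fun i => (C.res1 A v * Y ^ N) • divQuot hχ i
  have hφ : ∀ (x : M) i, (∃ s, C.res1 A s = (x : C.S01 A)) → ∃ s, C.res1 A s = φ i x := by
    intro x i hx
    obtain ⟨s, hs⟩ := hx
    obtain ⟨w, hw⟩ := hNb i
    refine P.range_of_chi1_mul ⟨v * s * w, ?_⟩
    show _ = C.res1 A P.chi1 * ((C.res1 A v * Y ^ N) * divQuot hχ i x)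
    rw [map_mul, map_mul, hs, hw, P.res1_chi1, ← hY]
    linear_combination -(C.res1 A v * Y ^ (N + P.chi.natDegree)) * mul_divQuot hχ i x
  have hp0 : C.res1 A P.chi1 ∈ M := by
    rw [P.res1_chi1]
    exact M.smul_mem _ (hmemI _ P.chi_mem)
  let p1 : Fin (n + 1) → M :=
    Fin.cons ⟨_, hp0⟩ fun i => ⟨Y ^ N * a i, M.smul_mem (Y ^ N) (ha i)⟩
  have hp1 : ∀ j, ∃ s, C.res1 A s = (p1 j : C.S01 A) := by
    intro j
    refine Fin.cases ?_ (fun i => ?_) j
    · exact ⟨_, rfl⟩
    · simpa [p1] using hNa i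
  let φ1 : Fin (n + 1) → M →ₗ[C.S01 A] C.S01 A := Fin.cons φ0 φ
  have hφ1 : ∀ (x : M) j, (∃ s, C.res1 A s = (x : C.S01 A)) → ∃ s, C.res1 A s = φ1 j x := by
    intro x j hx
    refine Fin.cases ?_ (fun i => ?_) j
    · obtain ⟨s, hs⟩ := hx
      exact ⟨u * s, by rw [map_mul, hs]; simp [φ1, φ0]⟩
    · simpa [φ1] using hφ x i hx
  let l0 : Lat (C.res0 A).toRingHom M :=
    { n := n
      p := fun i => ⟨a i, ha i⟩
      φ := fun i => divQuot hχ i
      sum_eq := fun x => Subtype.ext (by
        simp only [AddSubmonoidClass.coe_finsetSum, Submodule.coe_smul, smul_eq_mul]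
        exact sum_divQuot_mul hχ hsum x)
      mem := fun i j => by
        obtain ⟨s, hs⟩ := hI _ (ha₀ j) i
        exact ⟨s, hχ (hs.trans (mul_divQuot hχ i ⟨a j, ha j⟩).symm)⟩ }
  let l1 : Lat (C.res1 A).toRingHom M :=
    { n := n + 1
      p := p1
      φ := φ1
      sum_eq := fun x => Subtype.ext (by
        simp only [Fin.sum_univ_succ, p1, φ1, φ0, φ, Fin.cons_zero, Fin.cons_succ,
          LinearMap.smul_apply, Submodule.subtype_apply, Submodule.coe_add,
          AddSubmonoidClass.coe_finsetSum, Submodule.coe_smul, smul_eq_mul]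
        have e : ∑ i, C.res1 A v * Y ^ N * divQuot hχ i x * (Y ^ N * a i) =
            C.res1 A v * Y ^ (N + N) * x := by
          conv_rhs => rw [← sum_divQuot_mul hχ hsum x, Finset.mul_sum]
          exact Finset.sum_congr rfl fun i _ => by rw [pow_add]; ring
        rw [e]
        linear_combination (x : C.S01 A) * huv')
      mem := fun i j => hφ1 _ i (hp1 j) }
  let E : Bdl C A := { M := M, l0 := l0, l1 := l1 }
  refine ⟨E, ⟨⟨M.subtype, Subtype.val_injective, ?_, fun m => ?_, fun m => ?_⟩⟩⟩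
  · rw [Submodule.range_subtype]
    refine le_antisymm (fun x hx => hMI ⟨x, hx⟩)
      (Ideal.map_le_iff_le_comap.2 fun s hs => hmemI s hs)
  · rw [Bdl.mem_L0]
    constructor
    · intro h
      choose s hs using h
      refine ⟨∑ i, s i * a₀ i, Ideal.sum_mem _ fun i _ => Ideal.mul_mem_left _ _ (ha₀ i), ?_⟩
      rw [map_sum]
      conv_rhs => rw [Submodule.subtype_apply, ← sum_divQuot_mul hχ hsum m]
      exact Finset.sum_congr rfl fun i _ => by
        rw [map_mul]; exact congrArg (· * C.res0 A (a₀ i)) (hs i)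
    · rintro ⟨s, hs, he⟩ i
      obtain ⟨w, hw⟩ := hI s hs i
      refine ⟨w, hχ (?_ : P.chi01 * _ = P.chi01 * _)⟩
      exact hw.trans ((congrArg (· * b i) he).trans (mul_divQuot hχ i m).symm)
  · rw [Bdl.mem_L1]
    constructor
    · intro h
      choose s hs using h
      choose w hw using fun j => hp1 j
      refine ⟨∑ i, s i * w i, ?_⟩
      have e := congrArg Subtype.val (l1.sum_eq m)
      simp only [AddSubmonoidClass.coe_finsetSum, Submodule.coe_smul, smul_eq_mul] at e
      rw [map_sum]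
      refine Eq.trans ?_ e
      exact Finset.sum_congr rfl fun i _ => by
        rw [map_mul, hw]; exact congrArg (· * (p1 i : C.S01 A)) (hs i)
    · rintro ⟨s, hs⟩ i
      exact hφ1 m i ⟨s, hs⟩

/-- The bundle with the canonical section of its inverse, which has no zero at infinity. -/
theorem exists_bdl_generates : ∃ (E : Bdl C A) (σ : E.dual.H0), E.IsNegDiv P.I ∧
    Function.Injective (E.secFun σ) ∧ E.secI σ = P.I ∧ E.Generates σ := by
  obtain ⟨E, hE⟩ := P.exists_bdl
  obtain ⟨⟨ι, hι, hr, h0, h1⟩⟩ := hE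
  have hE' : E.IsNegDiv P.I := ⟨⟨ι, hι, hr, h0, h1⟩⟩
  refine ⟨E, ⟨E.toD ι, Bdl.mem_L0_dual.mpr fun m hm => ?_,
    Bdl.mem_L1_dual.mpr fun m hm => ?_⟩, hE', hι, ?_, fun z => ?_⟩
  · obtain ⟨s, -, hs⟩ := (h0 m).mp hm; exact ⟨s, hs⟩
  · obtain ⟨s, hs⟩ := (h1 m).mp hm; exact ⟨s, hs⟩
  · ext s
    constructor
    · rintro ⟨m, hm, e⟩
      obtain ⟨s', hs', e'⟩ := (h0 m).mp hm
      exact C.res0_injective A (e'.trans e.symm) ▸ hs'
    · intro hs
      obtain ⟨m, hm⟩ := hr.ge (Ideal.mem_map_of_mem (C.res0 A).toRingHom hs)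
      exact ⟨m, (h0 m).mpr ⟨s, hs, hm.symm⟩, hm.symm⟩
  · -- the reversed monic element has value one at the points at infinity
    obtain ⟨m, hm⟩ := hr.ge (show C.res1 A P.chi1 ∈ P.I.map (C.res0 A).toRingHom from P.chi1_mem)
    have hm1 : m ∈ E.L1 := (h1 m).mpr ⟨_, hm.symm⟩
    obtain ⟨u, v, huv⟩ := P.isCoprime_chi1
    have hy : C.pt1 A (C.cst A z.1) (C.yA A) = 0 := by
      simp [Curve2.pt1, Curve2.yA, Curve2.cst, z.2]
    rw [Ideal.eq_top_iff_one]
    have h2 : C.pt1 A (C.cst A z.1) u * C.pt1 A (C.cst A z.1) P.chi1 = 1 := by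
      have := congrArg (C.pt1 A (C.cst A z.1)) huv
      rwa [map_add, map_mul, map_mul, hy, mul_zero, add_zero, map_one] at this
    rw [← h2]
    refine Ideal.mul_mem_left _ _ ?_
    obtain ⟨c, hc⟩ := (E.mem_L1_iff_exists).1 hm1
    set σ1 : E.dual.L1 := ⟨E.toD ι, Bdl.mem_L1_dual.mpr fun m hm => by
      obtain ⟨s, hs⟩ := (h1 m).mp hm; exact ⟨s, hs⟩⟩
    have hval : P.chi1 = ∑ i, c i * E.pair1 σ1 ⟨E.l1.p i, E.p_mem_L1 i⟩ := by
      apply C.res1_injective A
      rw [← hm, hc, map_sum, map_sum]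
      exact Finset.sum_congr rfl fun i _ => by
        rw [map_mul, E.res1_pair1]; exact LinearMap.map_smul ι _ _
    rw [hval, map_sum]
    exact Ideal.sum_mem _ fun i _ => by
      rw [map_mul]
      exact Ideal.mul_mem_left _ _ (Ideal.subset_span ⟨i, rfl⟩)

end HilbPoint

end FermatAgent.Pic
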