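import Fermat.Agent.Pic.Basic

/-!
# Points of the Hilbert chart as multiplication matrices

A point of the chart over `A` is the same as a homomorphism of `R0` to matrices with a cyclic
vector for which the given elements give the standard basis.  This gives the functoriality.
-/

set_option autoImplicit false

noncomputable section

universe u

open scoped TensorProduct Matrix

namespace FermatAgent.Pic

variable {k : Type u} [Field k] {C : Curve2 k} {g : ℕ} {B : Fin g → C.R0}
  {A A' A'' : Type u} [CommRing A] [Algebra k A] [CommRing A'] [Algebra k A'] [CommRing A'']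
  [Algebra k A'']

attribute [ext] HilbPoint

namespace HilbPoint

variable (P : HilbPoint C B A)

theorem coord_exists (s : C.S0 A) :
    ∃ c : Fin g → A, s - ∑ i, c i ⊗ₜ[k] B i ∈ P.I :=
  (P.basis s).exists

/-- The coordinates modulo the ideal. -/
def coord : C.S0 A →ₗ[A] (Fin g → A) where
  toFun s := (P.coord_exists s).choose
  map_add' s t := (P.basis (s + t)).unique (P.coord_exists (s + t)).choose_spec (by
    have h := P.I.add_mem (P.coord_exists s).choose_spec (P.coord_exists t).choose_spec
    simp only [Pi.add_apply, TensorProduct.add_tmul, Finset.sum_add_distrib]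
    convert h using 1
    abel)
  map_smul' a s := (P.basis (a • s)).unique (P.coord_exists (a • s)).choose_spec (by
    have h := P.I.smul_of_tower_mem a (P.coord_exists s).choose_spec
    simpa [smul_sub, Finset.smul_sum, TensorProduct.smul_tmul'] using h)

/-- A function minus the combination with its coordinates lies in the ideal. -/
theorem sub_coord_mem (s : C.S0 A) : s - ∑ i, P.coord s i ⊗ₜ[k] B i ∈ P.I :=
  (P.coord_exists s).choose_spec

/-- The coordinates are unique. -/
theorem coord_eq {s : C.S0 A} {c : Fin g → A} (h : s - ∑ i, c i ⊗ₜ[k] B i ∈ P.I) :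
    P.coord s = c :=
  (P.basis s).unique (P.sub_coord_mem s) h

/-- A function has zero coordinates exactly if it lies in the ideal. -/
theorem coord_eq_zero_iff {s : C.S0 A} : P.coord s = 0 ↔ s ∈ P.I := by
  refine ⟨fun h => ?_, fun h => P.coord_eq (by simpa using h)⟩
  simpa [h] using P.sub_coord_mem s

theorem coord_eq_of_sub_mem {s t : C.S0 A} (h : s - t ∈ P.I) : P.coord s = P.coord t := by
  rw [← sub_eq_zero, ← map_sub, P.coord_eq_zero_iff]
  exact h

/-- The constant elements give the standard basis. -/
theorem coord_basis (j : Fin g) : P.coord ((1 : A) ⊗ₜ[k] B j) = Pi.single j 1 :=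
  P.coord_eq (by simp [Pi.single_apply, TensorProduct.ite_tmul, Finset.sum_ite_eq'])

/-- The matrix of multiplication by an element. -/
def mulMat (t : C.S0 A) : Matrix (Fin g) (Fin g) A :=
  Matrix.of fun i j => P.coord (t * ((1 : A) ⊗ₜ[k] B j)) i

/-- The matrix of multiplication acts on coordinates as multiplication. -/
theorem mulMat_mulVec (t s : C.S0 A) : P.mulMat t *ᵥ P.coord s = P.coord (t * s) := by
  have h : P.coord (t * s) = P.coord (t * ∑ i, P.coord s i ⊗ₜ[k] B i) :=
    P.coord_eq_of_sub_mem (by rw [← mul_sub]; exact P.I.mul_mem_left _ (P.sub_coord_mem s))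
  funext i
  rw [h, Finset.mul_sum, map_sum, Finset.sum_apply, Matrix.mulVec, dotProduct]
  refine Finset.sum_congr rfl fun j _ => ?_
  rw [show P.coord s j ⊗ₜ[k] B j = P.coord s j • ((1 : A) ⊗ₜ[k] B j) by
    rw [TensorProduct.smul_tmul', smul_eq_mul, mul_one], mul_smul_comm, map_smul, Pi.smul_apply,
    smul_eq_mul, mul_comm]
  rfl

theorem mulMat_add (s t : C.S0 A) : P.mulMat (s + t) = P.mulMat s + P.mulMat t := by
  ext i j
  simp [mulMat, add_mul]

theorem mulMat_smul (a : A) (s : C.S0 A) : P.mulMat (a • s) = a • P.mulMat s := by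
  ext i j
  simp [mulMat]

theorem mulMat_mul (s t : C.S0 A) : P.mulMat (s * t) = P.mulMat s * P.mulMat t := by
  ext i j
  have h := congrFun (P.mulMat_mulVec s (t * ((1 : A) ⊗ₜ[k] B j))) i
  simp only [mulMat, Matrix.of_apply, Matrix.mul_apply, mul_assoc] at h ⊢
  exact h.symm

theorem mulMat_one : P.mulMat 1 = 1 := by
  ext i j
  simp [mulMat, coord_basis, Matrix.one_apply, Pi.single_apply]

/-- Multiplication on the quotient as a homomorphism to matrices. -/
def mulHom : C.S0 A →ₐ[A] Matrix (Fin g) (Fin g) A :=
  AlgHom.ofLinearMap ⟨⟨P.mulMat, P.mulMat_add⟩, P.mulMat_smul⟩ P.mulMat_one P.mulMat_mul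

end HilbPoint

variable (C B A) in
/-- A homomorphism to matrices with a cyclic vector. -/
@[ext]
structure MatData : Type u where
  /-- multiplication -/
  φ : C.R0 →ₐ[k] Matrix (Fin g) (Fin g) A
  /-- the class of `1` -/
  e : Fin g → A
  basis : ∀ j, φ (B j) *ᵥ e = Pi.single j 1

namespace MatData

variable (D : MatData C B A)

/-- The extension to the first chart over `A`. -/
def lift : C.S0 A →ₐ[A] Matrix (Fin g) (Fin g) A :=
  Algebra.TensorProduct.lift (Algebra.ofId A _) D.φ fun a r => Algebra.commutes a (D.φ r)

/-- The extension to the chart on a pure tensor. -/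
theorem lift_tmul (a : A) (r : C.R0) : D.lift (a ⊗ₜ r) = a • D.φ r := by
  simp [lift, Algebra.smul_def]

/-- The class of an element in the standard basis. -/
def eval : C.S0 A →ₗ[A] (Fin g → A) :=
  ((Matrix.mulVecBilin A A).flip D.e).comp D.lift.toLinearMap

/-- The class of an element is its matrix applied to the cyclic vector. -/
theorem eval_apply (s : C.S0 A) : D.eval s = D.lift s *ᵥ D.e := rfl

theorem eval_sum (c : Fin g → A) : D.eval (∑ i, c i ⊗ₜ[k] B i) = c := by
  rw [map_sum]
  funext j
  simp [eval_apply, lift_tmul, Matrix.smul_mulVec, D.basis, Pi.single_apply,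
    Finset.sum_apply]

/-- The point of the chart. -/
def toPoint : HilbPoint C B A where
  I :=
    { carrier := {s | D.eval s = 0}
      zero_mem' := map_zero _
      add_mem' := fun {s t} hs ht => by
        simp only [Set.mem_ofPred_eq] at hs ht ⊢
        rw [map_add, hs, ht, add_zero]
      smul_mem' := fun t s hs => by
        simp only [Set.mem_ofPred_eq, smul_eq_mul, eval_apply] at hs ⊢
        rw [map_mul, ← Matrix.mulVec_mulVec, hs, Matrix.mulVec_zero] }
  basis s := ⟨D.eval s, by
    show D.eval _ = 0
    rw [map_sub, D.eval_sum, sub_self], fun c hc => by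
    have h : D.eval (s - ∑ i, c i ⊗ₜ[k] B i) = 0 := hc
    rw [map_sub, D.eval_sum, sub_eq_zero] at h
    exact h.symm⟩

theorem mem_toPoint {s : C.S0 A} : s ∈ D.toPoint.I ↔ D.eval s = 0 := Iff.rfl

theorem coord_toPoint (s : C.S0 A) : D.toPoint.coord s = D.eval s :=
  D.toPoint.coord_eq (by rw [mem_toPoint, map_sub, D.eval_sum, sub_self])

/-- Change of the parameter ring. -/
def map (f : A →ₐ[k] A') : MatData C B A' where
  φ := f.mapMatrix.comp D.φ
  e := f ∘ D.e
  basis j := by
    funext i
    have h := congrArg f (congrFun (D.basis j) i)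
    have h2 := RingHom.map_mulVec f.toRingHom (D.φ (B j)) D.e i
    refine h2.symm.trans (h.trans ?_)
    simp [Pi.single_apply, apply_ite f]

/-- Change of parameters of matrix data is functorial. -/
theorem map_map (f : A →ₐ[k] A') (f' : A' →ₐ[k] A'') : (D.map f).map f' = D.map (f'.comp f) :=
  MatData.ext (AlgHom.ext fun _ => Matrix.map_map) rfl

end MatData

namespace HilbPoint

variable (P : HilbPoint C B A)

/-- The matrices of a point. -/
def toData : MatData C B A where
  φ := (P.mulHom.restrictScalars k).comp Algebra.TensorProduct.includeRight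
  e := P.coord 1
  basis j := by
    show P.mulMat ((1 : A) ⊗ₜ[k] B j) *ᵥ P.coord 1 = _
    rw [P.mulMat_mulVec, mul_one, P.coord_basis]

theorem lift_toData : P.toData.lift = P.mulHom := by
  refine Algebra.TensorProduct.ext' fun a r => ?_
  rw [MatData.lift_tmul]
  show a • P.mulHom ((1 : A) ⊗ₜ[k] r) = _
  rw [← map_smul, TensorProduct.smul_tmul', smul_eq_mul, mul_one]

theorem eval_toData (s : C.S0 A) : P.toData.eval s = P.coord s := by
  rw [MatData.eval_apply, P.lift_toData]
  show P.mulMat s *ᵥ P.coord 1 = _
  rw [P.mulMat_mulVec, mul_one]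

/-- The point of the matrices of a point is that point. -/
theorem toPoint_toData : P.toData.toPoint = P :=
  HilbPoint.ext (Ideal.ext fun s => by rw [MatData.mem_toPoint, eval_toData, coord_eq_zero_iff])

/-- The matrices of the point of given matrices are those matrices. -/
theorem toData_toPoint (D : MatData C B A) : D.toPoint.toData = D := by
  refine MatData.ext (AlgHom.ext fun r => ?_) ?_
  · ext i j
    show D.toPoint.coord (((1 : A) ⊗ₜ[k] r) * ((1 : A) ⊗ₜ[k] B j)) i = D.φ r i j
    rw [MatData.coord_toPoint, MatData.eval_apply, map_mul, ← Matrix.mulVec_mulVec,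
      MatData.lift_tmul, MatData.lift_tmul, one_smul, one_smul, D.basis, Matrix.mulVec_single_one]
    rfl
  · show D.toPoint.coord 1 = D.e
    rw [MatData.coord_toPoint, MatData.eval_apply, map_one, Matrix.one_mulVec]

/-- Points of the chart are matrix data. -/
def equivData : HilbPoint C B A ≃ MatData C B A :=
  ⟨toData, MatData.toPoint, toPoint_toData, toData_toPoint⟩

/-- Change of the parameter ring. -/
def map (f : A →ₐ[k] A') : HilbPoint C B A' := (P.toData.map f).toPoint

/-- Passing to matrix data commutes with change of parameters. -/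
theorem toData_map (f : A →ₐ[k] A') : (P.map f).toData = P.toData.map f := toData_toPoint _

/-- Change of parameters of points is functorial. -/
theorem map_map (f : A →ₐ[k] A') (f' : A' →ₐ[k] A'') : (P.map f).map f' = P.map (f'.comp f) := by
  rw [map, toData_map, MatData.map_map, map]

/-- The map of charts on a pure tensor. -/
theorem map0_eq_map (f : A →ₐ[k] A') (a : A) (r : C.R0) :
    C.map0 f (a ⊗ₜ r) = f a ⊗ₜ r := by
  simp [Curve2.map0]

theorem coord_map (f : A →ₐ[k] A') (s : C.S0 A) :
    (P.map f).coord (C.map0 f s) = f ∘ P.coord s := by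
  rw [← P.eval_toData s, map, MatData.coord_toPoint]
  induction s using TensorProduct.induction_on with
  | zero => funext i; simp
  | add s t hs ht => rw [map_add, map_add, map_add, hs, ht]; funext i; simp
  | tmul a r =>
    rw [map0_eq_map, MatData.eval_apply, MatData.eval_apply, MatData.lift_tmul, MatData.lift_tmul,
      Matrix.smul_mulVec, Matrix.smul_mulVec]
    funext i
    rw [Pi.smul_apply, Function.comp_apply, Pi.smul_apply, smul_eq_mul, smul_eq_mul, map_mul]
    congr 1
    exact (RingHom.map_mulVec f.toRingHom (P.toData.φ r) P.toData.e i).symm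

/-- The ideal of the mapped point is the extended ideal. -/
theorem map_I (f : A →ₐ[k] A') : (P.map f).I = P.I.map (C.map0 f).toRingHom := by
  refine le_antisymm (fun s hs => ?_) (Ideal.map_le_iff_le_comap.2 fun s hs => ?_)
  · have key : ∀ t : C.S0 A', t - ∑ i, (P.map f).coord t i ⊗ₜ[k] B i ∈
        P.I.map (C.map0 f).toRingHom := by
      intro t
      induction t using TensorProduct.induction_on with
      | zero => simp
      | add a b ha hb =>
        rw [map_add]
        simp only [Pi.add_apply, TensorProduct.add_tmul, Finset.sum_add_distrib]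
        convert add_mem ha hb using 1
        abel
      | tmul a r =>
        have h : C.map0 f ((1 : A) ⊗ₜ[k] r) = (1 : A') ⊗ₜ[k] r := by
          rw [map0_eq_map, map_one]
        have h1 := Ideal.mem_map_of_mem (C.map0 f).toRingHom (P.sub_coord_mem ((1 : A) ⊗ₜ[k] r))
        have h2 := Ideal.mul_mem_left _ (a ⊗ₜ[k] (1 : C.R0)) h1
        convert h2 using 1
        have hc : (P.map f).coord (a ⊗ₜ[k] r) = a • (f ∘ P.coord ((1 : A) ⊗ₜ[k] r)) := by
          rw [← coord_map, h, ← map_smul, TensorProduct.smul_tmul', smul_eq_mul, mul_one]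
        rw [AlgHom.toRingHom_eq_coe, RingHom.coe_coe, map_sub, map_sum, h, mul_sub,
          Finset.mul_sum, hc]
        congr 1
        · simp
        · refine Finset.sum_congr rfl fun i _ => ?_
          simp [map0_eq_map, Pi.smul_apply, smul_eq_mul]
    have h := key s
    rwa [(P.map f).coord_eq_zero_iff.2 hs, show
      (∑ i, (0 : Fin g → A') i ⊗ₜ[k] B i) = 0 by simp, sub_zero] at h
  · show C.map0 f s ∈ (P.map f).I
    rw [← coord_eq_zero_iff, coord_map, P.coord_eq_zero_iff.2 hs]
    funext i
    simp

end HilbPoint

end FermatAgent.Pic
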