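import Fermat.Agent.Pic.Basic
import Fermat.Agent.AV.Basic.RationalPoint

/-!
# The charts over a ring and the local rings at geometric points

The first chart over `A` is free over `A[x]` by a retraction, and derivations at a geometric point
are determined by one value.
-/

set_option autoImplicit false

noncomputable section

universe u

open scoped TensorProduct

namespace FermatAgent.Pic.Curve2

variable {k : Type u} [Field k] (C : Curve2 k) (A : Type u) [CommRing A] [Algebra k A]

theorem exists_free0 : ∃ (d : ℕ) (Φ : (Fin d → Polynomial A) → C.S0 A)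
    (ρ : C.S0 A →ₗ[A] (Fin d → Polynomial A)), (∀ s, Φ (ρ s) = s) ∧
      ∀ (p : Polynomial A) (s : C.S0 A) (i : Fin d),
        ρ (Polynomial.aeval (C.xA A) p * s) i = p * ρ s i := by
  classical
  obtain ⟨d, b, hb⟩ := C.fin0
  let c : C.R0 →ₗ[k] (Fin d → Polynomial k) :=
    { toFun := fun r => (hb r).exists.choose
      map_add' := fun r s => (hb (r + s)).unique (hb (r + s)).exists.choose_spec (by
        conv_lhs => rw [(hb r).exists.choose_spec, (hb s).exists.choose_spec]
        simp [add_mul, Finset.sum_add_distrib])
      map_smul' := fun a r => (hb (a • r)).unique (hb (a • r)).exists.choose_spec (by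
        conv_lhs => rw [(hb r).exists.choose_spec]
        simp [Finset.smul_sum]) }
  have hc : ∀ r, r = ∑ i, Polynomial.aeval C.x (c r i) * b i := fun r => (hb r).exists.choose_spec
  have hcx : ∀ r i, c (C.x * r) i = Polynomial.X * c r i := fun r =>
    congrFun ((hb (C.x * r)).unique (hb (C.x * r)).exists.choose_spec (by
      conv_lhs => rw [hc r, Finset.mul_sum]
      simp [mul_assoc]))
  let ev : (Fin d → Polynomial k) →ₗ[k] (Fin d → Polynomial A) :=
    LinearMap.pi fun i => (Polynomial.mapAlgHom (Algebra.ofId k A)).toLinearMap.comp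
      (LinearMap.proj i)
  let ρ : C.S0 A →ₗ[A] (Fin d → Polynomial A) := (ev.comp c).liftBaseChange A
  refine ⟨d, fun q => ∑ i, Polynomial.aeval (C.xA A) (q i) * ((1 : A) ⊗ₜ[k] b i), ρ,
    fun s => ?_, ?_⟩
  · induction s using TensorProduct.induction_on with
    | zero => simp
    | add s t hs ht =>
      simp only [map_add, Pi.add_apply, add_mul, Finset.sum_add_distrib, hs, ht]
    | tmul a r =>
      have h : ∀ p : Polynomial k, Polynomial.aeval (C.xA A) (p.map (algebraMap k A)) =
          (1 : A) ⊗ₜ[k] Polynomial.aeval C.x p := fun p => by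
        rw [Polynomial.aeval_map_algebraMap]
        exact Polynomial.aeval_algHom_apply
          (Algebra.TensorProduct.includeRight : C.R0 →ₐ[k] C.S0 A) C.x p
      have hρ : ∀ i, ρ (a ⊗ₜ r) i = a • (c r i).map (algebraMap k A) := fun i => by
        simp [ρ, ev, Polynomial.coe_mapAlgHom]
      conv_rhs => rw [hc r, TensorProduct.tmul_sum]
      refine Finset.sum_congr rfl fun i _ => ?_
      rw [hρ, map_smul, h, smul_mul_assoc, Algebra.TensorProduct.tmul_mul_tmul, mul_one,
        TensorProduct.smul_tmul', smul_eq_mul, mul_one]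
  · have hX : ∀ (s : C.S0 A) i, ρ (C.xA A * s) i = Polynomial.X * ρ s i := by
      intro s i
      induction s using TensorProduct.induction_on with
      | zero => simp
      | add s t hs ht => simp only [mul_add, map_add, Pi.add_apply, hs, ht]
      | tmul a r => simp [ρ, ev, xA, hcx]
    intro p
    induction p using Polynomial.induction_on' with
    | add p q hp hq =>
      intro s i
      simp only [map_add, add_mul, Pi.add_apply, hp, hq]
    | monomial n a =>
      intro s i
      induction n generalizing s with
      | zero =>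
        rw [Polynomial.monomial_zero_left, Polynomial.aeval_C, ← Algebra.smul_def, map_smul,
          Pi.smul_apply, ← Polynomial.smul_eq_C_mul]
      | succ n ih =>
        rw [show Polynomial.monomial (n + 1) a = Polynomial.monomial n a * Polynomial.X from
          (Polynomial.monomial_mul_X _ _).symm, map_mul (Polynomial.aeval (C.xA A)),
          Polynomial.aeval_X, mul_assoc, ih (C.xA A * s), hX, mul_assoc]

/-- A monic polynomial in the coordinate is a nonzerodivisor of the chart. -/
theorem eq_zero_of_monic_mul {p : Polynomial A} (hp : p.Monic) {s : C.S0 A}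
    (h : Polynomial.aeval (C.xA A) p * s = 0) : s = 0 := by
  obtain ⟨d, Φ, ρ, hΦ, hρ⟩ := C.exists_free0 A
  have h0 : ρ s = 0 := funext fun i => hp.isRegular.left (by
    show p * ρ s i = p * (0 : Fin d → Polynomial A) i
    rw [← hρ, h, map_zero, Pi.zero_apply, mul_zero])
  rw [← hΦ s, h0, ← map_zero ρ, hΦ]

/-- An `A`-point of the first chart. -/
def pt0 (P : C.R0 →ₐ[k] A) : C.S0 A →ₐ[A] A :=
  Algebra.TensorProduct.lift (AlgHom.id A A) P fun _ _ => Commute.all _ _

/-- The value of a point on a pure tensor. -/
theorem pt0_tmul (P : C.R0 →ₐ[k] A) (a : A) (r : C.R0) : C.pt0 A P (a ⊗ₜ r) = a * P r := by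
  simp [pt0]

/-- Derivations at a point are determined by one value. -/
theorem exists_derivation_generator [IsAlgClosed k] {K : Type u} [Field K] [Algebra k K]
    (P : C.R0 →ₐ[k] K) : ∃ t : C.R0, ∀ δ : C.R0 →ₗ[k] K,
      (∀ r s, δ (r * s) = P r * δ s + P s * δ r) → δ t = 0 → δ = 0 := by
  classical
  have := C.smooth0.finitePresentation
  have : Algebra.FiniteType k C.R0 := inferInstance
  obtain ⟨m, hm, hPm⟩ := Ideal.exists_le_maximal _ (RingHom.ker_ne_top P.toRingHom)
  have := AV.finite_quotient_maximal (k := k) m
  obtain ⟨Q, hQ⟩ := AV.exists_algHom_ker (k := k) m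
  obtain ⟨t, ht0, ht⟩ := C.cot0 Q
  set N : Submodule C.R0 (Ω[C.R0⁄k] ⧸ Submodule.span C.R0 {KaehlerDifferential.D k C.R0 t}) := ⊤
  set mk := (Submodule.span C.R0 {KaehlerDifferential.D k C.R0 t}).mkQ
  have hstep : ∀ r : C.R0, mk (KaehlerDifferential.D k C.R0 r) ∈ m • N := fun r => by
    set r' := r - algebraMap k C.R0 (Q r)
    have hr' : Q r' = 0 := by simp [r']
    obtain ⟨a, s, hs, he⟩ := ht r' hr'
    have hdt : mk (KaehlerDifferential.D k C.R0 t) = 0 := by
      rw [← LinearMap.mem_ker, Submodule.ker_mkQ]
      exact Submodule.subset_span rfl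
    have h := congrArg (fun z => mk (KaehlerDifferential.D k C.R0 z)) he
    simp only [Derivation.leibniz, map_add, map_smul] at h
    rw [hdt, smul_zero, zero_add] at h
    have hD : KaehlerDifferential.D k C.R0 r' = KaehlerDifferential.D k C.R0 r := by
      rw [map_sub, Derivation.map_algebraMap, sub_zero]
    rw [hD] at h
    -- `s dr ∈ m Ω` and `s` is a unit modulo `m`
    have hsr : s • mk (KaehlerDifferential.D k C.R0 r) ∈ m • N := by
      have h2 : t • mk (KaehlerDifferential.D k C.R0 a) - r' • mk (KaehlerDifferential.D k C.R0 s)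
          ∈ m • N :=
        sub_mem (Submodule.smul_mem_smul ((hQ t).1 ht0) Submodule.mem_top)
          (Submodule.smul_mem_smul ((hQ r').1 hr') Submodule.mem_top)
      rw [show s • mk (KaehlerDifferential.D k C.R0 r) =
        t • mk (KaehlerDifferential.D k C.R0 a) - r' • mk (KaehlerDifferential.D k C.R0 s) by
        rw [← h]; abel]
      exact h2
    obtain ⟨v, hv⟩ : ∃ v : k, v * Q s = 1 := ⟨(Q s)⁻¹, inv_mul_cancel₀ hs⟩
    have hone : (1 : C.R0) - algebraMap k C.R0 v * s ∈ m := by
      rw [← hQ]; simp [hv]
    have := add_mem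
      (Submodule.smul_mem_smul hone (Submodule.mem_top (x := mk (KaehlerDifferential.D k C.R0 r))))
      (Submodule.smul_mem _ (algebraMap k C.R0 v) hsr)
    rwa [smul_smul, ← add_smul, sub_add_cancel, one_smul] at this
  obtain ⟨e, he1, he2⟩ := Submodule.exists_sub_one_mem_and_smul_eq_zero_of_fg_of_le_smul m N
    Module.Finite.fg_top (by
      intro z hz
      clear hz
      obtain ⟨w, rfl⟩ := Submodule.mkQ_surjective _ z
      have hw : w ∈ Submodule.span C.R0 (Set.range (KaehlerDifferential.D k C.R0)) := by
        rw [KaehlerDifferential.span_range_derivation]; trivial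
      induction hw using Submodule.span_induction with
      | mem x hx => obtain ⟨r, rfl⟩ := hx; exact hstep r
      | zero => rw [map_zero]; exact zero_mem _
      | add x y _ _ hx hy => rw [map_add]; exact add_mem hx hy
      | smul a x _ hx => rw [map_smul]; exact Submodule.smul_mem _ _ hx)
  refine ⟨t, fun δ hδ h0 => ?_⟩
  let : Algebra C.R0 K := P.toRingHom.toAlgebra
  have : IsScalarTower k C.R0 K := IsScalarTower.of_algebraMap_eq fun a => (P.commutes a).symm
  let D' : Derivation k C.R0 K := Derivation.mk' δ fun r s => hδ r s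
  have hker : ∀ w ∈ Submodule.span C.R0 {KaehlerDifferential.D k C.R0 t},
      D'.liftKaehlerDifferential w = 0 := by
    intro w hw
    obtain ⟨c, rfl⟩ := Submodule.mem_span_singleton.1 hw
    rw [map_smul, show D'.liftKaehlerDifferential (KaehlerDifferential.D k C.R0 t) = D' t from
      Derivation.congr_fun D'.liftKaehlerDifferential_comp t, show D' t = 0 from h0, smul_zero]
  ext r
  have h1 : e • KaehlerDifferential.D k C.R0 r ∈
      Submodule.span C.R0 {KaehlerDifferential.D k C.R0 t} := by
    rw [← Submodule.ker_mkQ (Submodule.span _ _), LinearMap.mem_ker, map_smul]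
    exact he2 _ trivial
  have h2 := hker _ h1
  rw [map_smul, show D'.liftKaehlerDifferential (KaehlerDifferential.D k C.R0 r) = D' r from
    Derivation.congr_fun D'.liftKaehlerDifferential_comp r] at h2
  refine (mul_eq_zero.1 (show P e * δ r = 0 from h2)).resolve_left fun hPe => ?_
  have hem : e ∈ m := hPm hPe
  exact hm.ne_top ((Ideal.eq_top_iff_one _).2 (by
    have := sub_mem hem he1
    rwa [sub_sub_cancel] at this))

end FermatAgent.Pic.Curve2
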