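import Fermat.Agent.Pic.Hilb.Curve

/-!
# Ideals at rational points of the chart over a field are locally principal

The kernel of a rational point is spanned by a uniformiser modulo its square, so by Nakayama each
ideal is generated near the point by one element.
-/

set_option autoImplicit false

noncomputable section

universe u

open scoped TensorProduct

namespace FermatAgent.Pic.Curve2

variable {k : Type u} [Field k] [IsAlgClosed k] (C : Curve2 k) {K : Type u} [Field K] [Algebra k K]
  (P : C.R0 →ₐ[k] K)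

/-- The kernel of a point is spanned by one element modulo its square. -/
theorem exists_uniformiser : ∃ τ : C.S0 K, C.pt0 K P τ = 0 ∧
    RingHom.ker (C.pt0 K P).toRingHom ≤
      Ideal.span {τ} ⊔ RingHom.ker (C.pt0 K P).toRingHom * RingHom.ker (C.pt0 K P).toRingHom := by
  obtain ⟨t, ht⟩ := C.exists_derivation_generator P
  let w : C.R0 →ₗ[k] C.S0 K :=
    (TensorProduct.mk k K C.R0 1) - ((TensorProduct.mk k K C.R0).flip 1).comp P.toLinearMap
  have hwr : ∀ r, w r = (1 : K) ⊗ₜ[k] r - P r ⊗ₜ[k] (1 : C.R0) := fun _ => rfl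
  have hw : ∀ r, w r ∈ RingHom.ker (C.pt0 K P).toRingHom := fun r => by
    rw [RingHom.mem_ker, hwr]
    simp [pt0_tmul]
  set mI := RingHom.ker (C.pt0 K P).toRingHom
  set J := Ideal.span {w t} ⊔ mI * mI
  refine ⟨w t, hw t, fun z hz => ?_⟩
  have hwJ : ∀ r, w r ∈ J := by
    intro r
    by_contra hr
    set N := J.restrictScalars K
    have hne : N.mkQ (w r) ≠ 0 := fun h => hr ((Submodule.Quotient.mk_eq_zero N).1 h)
    obtain ⟨L, hL⟩ : ∃ L : Module.Dual K (C.S0 K ⧸ N), L (N.mkQ (w r)) ≠ 0 := by
      by_contra hL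
      push Not at hL
      exact hne ((Module.forall_dual_apply_eq_zero_iff K _).1 hL)
    let δ : C.R0 →ₗ[k] K := ((L.comp N.mkQ).restrictScalars k).comp w
    have hδ : ∀ a b, δ (a * b) = P a * δ b + P b * δ a := by
      intro a b
      have hab : w (a * b) = P a • w b + P b • w a + w a * w b := by
        simp only [hwr, mul_sub, sub_mul, smul_sub, Algebra.TensorProduct.tmul_mul_tmul,
          TensorProduct.smul_tmul', smul_eq_mul, mul_one, one_mul, map_mul]
        rw [mul_comm (P b) (P a)]
        abel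
      have h0 : N.mkQ (w a * w b) = 0 :=
        (Submodule.Quotient.mk_eq_zero N).2 (Ideal.mem_sup_right (Ideal.mul_mem_mul (hw a) (hw b)))
      show L (N.mkQ (w (a * b))) = P a * L (N.mkQ (w b)) + P b * L (N.mkQ (w a))
      rw [hab]
      simp only [map_add, map_smul, h0, add_zero, smul_eq_mul]
    have h0 : δ t = 0 := by
      show L (N.mkQ (w t)) = 0
      rw [show N.mkQ (w t) = 0 from (Submodule.Quotient.mk_eq_zero N).2
        (Ideal.mem_sup_left (Ideal.subset_span rfl)), map_zero]
    exact hL (LinearMap.congr_fun (ht δ hδ h0) r)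
  have key : ∀ s : C.S0 K, s - algebraMap K (C.S0 K) (C.pt0 K P s) ∈ J := by
    intro s
    induction s using TensorProduct.induction_on with
    | zero => simp
    | add a b ha hb =>
      rw [map_add, map_add]
      convert add_mem ha hb using 1
      abel
    | tmul a r =>
      convert Submodule.smul_of_tower_mem J a (hwJ r) using 1
      simp [hwr, pt0_tmul, smul_sub, TensorProduct.smul_tmul',
        Algebra.TensorProduct.algebraMap_apply]
  have h := key z
  rwa [show C.pt0 K P z = 0 from hz, map_zero, sub_zero] at h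

/-- Ideals are locally principal at a rational point of the chart. -/
theorem exists_local_generator (L : Ideal (C.S0 K)) :
    ∃ t ∈ L, ∀ i ∈ L, ∃ u h : C.S0 K, C.pt0 K P u ≠ 0 ∧ u * i = h * t := by
  classical
  have := C.smooth0.finitePresentation
  have : IsNoetherianRing (C.S0 K) := Algebra.FiniteType.isNoetherianRing K (C.S0 K)
  set mI := RingHom.ker (C.pt0 K P).toRingHom with hmI
  have : mI.IsPrime := RingHom.ker_isPrime _
  set O := Localization.AtPrime mI
  set al := algebraMap (C.S0 K) O
  obtain ⟨τ, hτ0, hτ⟩ := C.exists_uniformiser P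
  have : IsNoetherianRing O := IsLocalization.isNoetherianRing mI.primeCompl O inferInstance
  have hmap : mI.map al = IsLocalRing.maximalIdeal O :=
    Localization.AtPrime.map_eq_maximalIdeal
  have hjac : IsLocalRing.maximalIdeal O ≤ Ideal.jacobson ⊥ :=
    (IsLocalRing.jacobson_eq_maximalIdeal ⊥ bot_ne_top).ge
  have hprinc : IsLocalRing.maximalIdeal O = Ideal.span {al τ} := by
    refine le_antisymm ?_
      ((Ideal.span_singleton_le_iff_mem _).2 (hmap ▸ Ideal.mem_map_of_mem al hτ0))
    refine Submodule.le_of_le_smul_of_le_jacobson_bot (IsNoetherian.noetherian _) hjac ?_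
    calc IsLocalRing.maximalIdeal O = mI.map al := hmap.symm
      _ ≤ (Ideal.span {τ} ⊔ mI * mI).map al := Ideal.map_mono hτ
      _ = Ideal.span {al τ} ⊔ IsLocalRing.maximalIdeal O • IsLocalRing.maximalIdeal O := by
        rw [Ideal.map_sup, Ideal.map_mul, hmap, Ideal.map_span, Set.image_singleton, smul_eq_mul]
  have : IsPrincipalIdealRing O := IsPrincipalIdealRing.of_prime fun Q hQ => by
    by_cases hτQ : al τ ∈ Q
    · refine ⟨⟨al τ, le_antisymm ?_ ?_⟩⟩
      · rw [← Ideal.span, ← hprinc]
        exact IsLocalRing.le_maximalIdeal hQ.ne_top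
      · rw [← Ideal.span, Ideal.span_singleton_le_iff_mem]
        exact hτQ
    · have hle : Q ≤ IsLocalRing.maximalIdeal O • Q := fun p hp => by
        have hp' : p ∈ Ideal.span {al τ} := hprinc ▸ IsLocalRing.le_maximalIdeal hQ.ne_top hp
        obtain ⟨h, rfl⟩ := Ideal.mem_span_singleton'.1 hp'
        rw [mul_comm]
        exact Submodule.smul_mem_smul (hprinc ▸ Ideal.subset_span rfl)
          ((hQ.mem_or_mem hp).resolve_right hτQ)
      rw [Submodule.eq_bot_of_le_smul_of_le_jacobson_bot _ _ (IsNoetherian.noetherian _) hle hjac]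
      exact bot_isPrincipal
  obtain ⟨⟨γ, hγ⟩⟩ := IsPrincipalIdealRing.principal (L.map al)
  have hγL : γ ∈ L.map al := hγ ▸ Submodule.mem_span_singleton_self γ
  obtain ⟨⟨⟨l, hl⟩, v⟩, hlv⟩ := (IsLocalization.mem_map_algebraMap_iff mI.primeCompl O).1 hγL
  refine ⟨l, hl, fun i hi => ?_⟩
  have hi' : al i ∈ Submodule.span O {γ} := hγ ▸ Ideal.mem_map_of_mem al hi
  obtain ⟨h, hh⟩ := Submodule.mem_span_singleton.1 hi'
  obtain ⟨⟨h', v'⟩, hhv⟩ := IsLocalization.surj mI.primeCompl h
  have he : al (i * (v : C.S0 K) * (v' : C.S0 K)) = al (h' * l) := by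
    rw [map_mul, map_mul, map_mul, ← hh, ← hlv, ← hhv, smul_eq_mul]
    ring
  obtain ⟨c, hc⟩ := IsLocalization.exists_of_eq (M := mI.primeCompl) he
  refine ⟨c * v * v', c * h', ?_, ?_⟩
  · intro h0
    exact (c * v * v').2 (RingHom.mem_ker.2 h0)
  · linear_combination hc

end FermatAgent.Pic.Curve2
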