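import Fermat.Agent.Pic.Hilb.Basic
import Fermat.Agent.Pic.Hilb.Fibre

/-!
# The ideal of a point of the chart is invertible
-/

set_option autoImplicit false

noncomputable section

universe u

open scoped TensorProduct Matrix

namespace FermatAgent.Pic.HilbPoint

variable {k : Type u} [Field k] {C : Curve2 k} {g : ℕ} {B : Fin g → C.R0}
  {A : Type u} [CommRing A] [Algebra k A] (P : HilbPoint C B A)

/-- The monic polynomial in the coordinate lying in the ideal. -/
def chi : Polynomial A := (P.mulMat (C.xA A)).charpoly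

/-- The polynomial `χ` is monic. -/
theorem chi_monic : P.chi.Monic := Matrix.charpoly_monic _

/-- Cayley–Hamilton: `χ(x)` lies in the ideal of the point. -/
theorem chi_mem : Polynomial.aeval (C.xA A) P.chi ∈ P.I := by
  rw [← coord_eq_zero_iff, ← mul_one (Polynomial.aeval (C.xA A) P.chi), ← P.mulMat_mulVec,
    show P.mulMat (Polynomial.aeval (C.xA A) P.chi) = P.mulHom (Polynomial.aeval (C.xA A) P.chi)
      from rfl, ← Polynomial.aeval_algHom_apply,
    show Polynomial.aeval (P.mulHom (C.xA A)) P.chi = 0 from Matrix.aeval_self_charpoly _,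
    Matrix.zero_mulVec]

theorem ideal_fg : P.I.FG := by
  have := C.smooth0.finitePresentation
  let e : (C.S0 A ⧸ P.I) ≃ₗ[A] (Fin g → A) :=
    LinearEquiv.ofBijective
      ((P.I.restrictScalars A).liftQ P.coord fun s hs => P.coord_eq_zero_iff.2 hs) <| by
      refine ⟨?_, fun c => ⟨Submodule.Quotient.mk (∑ i, c i ⊗ₜ[k] B i), P.coord_eq (by simp)⟩⟩
      rw [injective_iff_map_eq_zero]
      intro q hq
      obtain ⟨s, rfl⟩ := Submodule.Quotient.mk_surjective _ q
      exact (Submodule.Quotient.mk_eq_zero _).2 (P.coord_eq_zero_iff.1 hq)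
  have : Module.Finite A (C.S0 A ⧸ P.I) := Module.Finite.equiv e.symm
  have : Module.Projective A (C.S0 A ⧸ P.I) := Module.Projective.of_equiv e.symm
  have : Module.FinitePresentation A (C.S0 A ⧸ P.I) := Module.finitePresentation_of_projective _ _
  have : Algebra.FinitePresentation A (C.S0 A) := inferInstance
  have h := Algebra.FinitePresentation.ker_fG_of_surjective (Ideal.Quotient.mkₐ A P.I)
    (Ideal.Quotient.mkₐ_surjective A P.I)
  rwa [show RingHom.ker (Ideal.Quotient.mkₐ A P.I).toRingHom = P.I from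
    Ideal.Quotient.mkₐ_ker A P.I] at h

/-- The projection to the ideal. -/
def proj : C.S0 A →ₗ[A] P.I where
  toFun s := ⟨s - ∑ i, P.coord s i ⊗ₜ[k] B i, P.sub_coord_mem s⟩
  map_add' s t := Subtype.ext (by
    simp only [map_add, Pi.add_apply, TensorProduct.add_tmul, Finset.sum_add_distrib,
      Submodule.coe_add]
    abel)
  map_smul' a s := Subtype.ext (by
    simp [smul_sub, Finset.smul_sum, TensorProduct.smul_tmul'])

/-- The projection to the ideal subtracts the combination with the coordinates. -/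
theorem coe_proj (s : C.S0 A) : (P.proj s : C.S0 A) = s - ∑ i, P.coord s i ⊗ₜ[k] B i := rfl

theorem proj_of_mem {s : C.S0 A} (hs : s ∈ P.I) : P.proj s = ⟨s, hs⟩ :=
  Subtype.ext (by simp [coe_proj, P.coord_eq_zero_iff.2 hs])

variable [IsAlgClosed k]

/-- At a geometric point all semilinear functionals on the ideal are detected by one element. -/
theorem exists_detecting {K : Type u} [Field K] [Algebra k K] (f : A →ₐ[k] K)
    (Q : C.R0 →ₐ[k] K) : ∃ t : P.I, ∀ lam : P.I →+ K,
      (∀ (s : C.S0 A) (m : P.I), lam (s • m) = C.pt0 K Q (C.map0 f s) * lam m) →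
        lam t = 0 → lam = 0 := by
  classical
  obtain ⟨t', ht', hloc⟩ := C.exists_local_generator Q (P.map f).I
  have hmem : ∀ j : P.I, C.map0 f (j : C.S0 A) ∈ (P.map f).I := fun j => by
    rw [map_I]; exact Ideal.mem_map_of_mem (C.map0 f).toRingHom j.2
  have ext_fun : ∀ lam : P.I →+ K,
      (∀ (s : C.S0 A) (m : P.I), lam (s • m) = C.pt0 K Q (C.map0 f s) * lam m) →
      ∃ Lam : C.S0 K →ₗ[K] K, (∀ m : P.I, Lam (C.map0 f m) = lam m) ∧
        ∀ u m, m ∈ (P.map f).I → Lam (u * m) = C.pt0 K Q u * Lam m := by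
    intro lam hlam
    let : Algebra A K := f.toRingHom.toAlgebra
    have : IsScalarTower k A K := IsScalarTower.of_algebraMap_eq fun a => (f.commutes a).symm
    have hA : ∀ (a : A) (m : P.I), lam (a • m) = f a * lam m := fun a m => by
      have h := hlam (algebraMap A (C.S0 A) a) m
      rw [algebraMap_smul] at h
      rw [h, Algebra.TensorProduct.algebraMap_apply, map0_eq_map, Curve2.pt0_tmul, map_one, mul_one]
      rfl
    let lamk : P.I →ₗ[A] K :=
      { lam with
        map_smul' := fun a m => by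
          simp only [RingHom.id_apply]; rw [Algebra.smul_def]; exact hA a m }
    let lr : C.R0 →ₗ[k] K := (lamk.restrictScalars k).comp
      ((P.proj.restrictScalars k).comp (TensorProduct.mk k A C.R0 1))
    let Lam : C.S0 K →ₗ[K] K := lr.liftBaseChange K
    have hLam : ∀ s : C.S0 A, Lam (C.map0 f s) = lam (P.proj s) := by
      intro s
      induction s using TensorProduct.induction_on with
      | zero => simp
      | add a b ha hb => rw [map_add, map_add, map_add, map_add, ha, hb]
      | tmul a r =>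
        rw [map0_eq_map, show (a ⊗ₜ[k] r : C.S0 A) = a • ((1 : A) ⊗ₜ[k] r) by
          rw [TensorProduct.smul_tmul', smul_eq_mul, mul_one], map_smul, hA]
        simp [Lam, lr, lamk]
    have h1 : ∀ m : P.I, Lam (C.map0 f m) = lam m := fun m => by rw [hLam, P.proj_of_mem m.2]
    refine ⟨Lam, h1, fun u m hm => ?_⟩
    rw [map_I] at hm
    have h2 : ∀ (m : P.I) (u : C.S0 K), Lam (u * C.map0 f m) = C.pt0 K Q u * lam m := by
      intro m u
      induction u using TensorProduct.induction_on with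
      | zero => simp
      | add a b ha hb => rw [add_mul, map_add, ha, hb, map_add, add_mul]
      | tmul c r =>
        rw [show (c ⊗ₜ[k] r : C.S0 K) = c • C.map0 f ((1 : A) ⊗ₜ[k] r) by
          rw [map0_eq_map, map_one, TensorProduct.smul_tmul', smul_eq_mul, mul_one], smul_mul_assoc,
          ← map_mul, map_smul, show (1 : A) ⊗ₜ[k] r * (m : C.S0 A) =
            ((((1 : A) ⊗ₜ[k] r) • m : P.I) : C.S0 A) from rfl, h1, hlam, map_smul, smul_eq_mul,
          smul_eq_mul, mul_assoc]
    revert u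
    induction hm using Submodule.span_induction with
    | mem x hx =>
      obtain ⟨s, hs, rfl⟩ := hx
      intro u
      exact (h2 ⟨s, hs⟩ u).trans (by rw [← h1 ⟨s, hs⟩]; rfl)
    | zero => intro u; simp
    | add x y _ _ hx hy => intro u; rw [mul_add, map_add, map_add, hx, hy, mul_add]
    | smul c x _ hx =>
      intro u
      rw [smul_eq_mul, ← mul_assoc, hx, hx, map_mul, mul_assoc]
  -- every functional is determined by one value `c`
  have hval : ∀ lam : P.I →+ K,
      (∀ (s : C.S0 A) (m : P.I), lam (s • m) = C.pt0 K Q (C.map0 f s) * lam m) →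
      ∃ c : K, ∀ (j : P.I) (u h : C.S0 K), u * C.map0 f j = h * t' →
        C.pt0 K Q u * lam j = C.pt0 K Q h * c := fun lam hlam => by
    obtain ⟨Lam, h1, h2⟩ := ext_fun lam hlam
    exact ⟨Lam t', fun j u h he => by rw [← h1 j, ← h2 _ _ (hmem j), he, h2 _ _ ht']⟩
  by_cases hall : ∀ lam : P.I →+ K,
      (∀ (s : C.S0 A) (m : P.I), lam (s • m) = C.pt0 K Q (C.map0 f s) * lam m) → lam = 0
  · exact ⟨0, fun lam hlam _ => hall lam hlam⟩
  push Not at hall
  obtain ⟨lam₀, hlam₀, hne⟩ := hall
  obtain ⟨t, ht⟩ := DFunLike.ne_iff.1 hne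
  -- the coefficient of `t` does not vanish
  obtain ⟨u, h, hu, he⟩ := hloc _ (hmem t)
  obtain ⟨c₀, hc₀⟩ := hval lam₀ hlam₀
  have hh : C.pt0 K Q h ≠ 0 := fun h0 =>
    mul_ne_zero hu ht (by rw [hc₀ t u h he, h0, zero_mul])
  refine ⟨t, fun lam hlam hlt => AddMonoidHom.ext fun j => ?_⟩
  obtain ⟨c, hc⟩ := hval lam hlam
  obtain ⟨u', h', hu', he'⟩ := hloc _ (hmem j)
  have h0 := hc t u h he
  rw [hlt, mul_zero] at h0
  have h1 := hc j u' h' he'
  rw [(mul_eq_zero.1 h0.symm).resolve_left hh, mul_zero] at h1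
  exact (mul_eq_zero.1 h1).resolve_left hu'

/-- The ideal is locally principal. -/
theorem exists_principal_at (p : Ideal (C.S0 A)) [p.IsPrime] :
    ∃ t ∈ P.I, ∀ i ∈ P.I, ∃ u : C.S0 A, u ∉ p ∧ ∃ h, u * i = h * t := by
  classical
  let κ := p.ResidueField
  let K := AlgebraicClosure κ
  let Φ : C.S0 A →ₐ[k] K := IsScalarTower.toAlgHom k (C.S0 A) K
  let f : A →ₐ[k] K := Φ.comp Algebra.TensorProduct.includeLeft
  let Q : C.R0 →ₐ[k] K := Φ.comp Algebra.TensorProduct.includeRight
  have hΦ : ∀ s, C.pt0 K Q (C.map0 f s) = Φ s := by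
    intro s
    induction s using TensorProduct.induction_on with
    | zero => simp
    | add a b ha hb => rw [map_add, map_add, map_add, ha, hb]
    | tmul a r =>
      rw [map0_eq_map, Curve2.pt0_tmul]
      show Φ (a ⊗ₜ (1 : C.R0)) * Φ ((1 : A) ⊗ₜ r) = _
      rw [← map_mul, Algebra.TensorProduct.tmul_mul_tmul, mul_one, one_mul]
  obtain ⟨t, ht⟩ := P.exists_detecting f Q
  have : Module.Finite (C.S0 A) P.I := Module.Finite.iff_fg.2 P.ideal_fg
  set N : Submodule (C.S0 A) P.I := Submodule.span (C.S0 A) {t}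
  have hsupp : (⟨p, inferInstance⟩ : PrimeSpectrum (C.S0 A)) ∉ Module.support (C.S0 A)
      (P.I ⧸ N) := by
    rw [Module.mem_support_iff_nontrivial_residueField_tensorProduct,
      not_nontrivial_iff_subsingleton]
    refine subsingleton_of_forall_eq 0 fun y => ?_
    refine (Module.forall_dual_apply_eq_zero_iff κ y).1 fun L => ?_
    let lam : P.I →+ K :=
      { toFun := fun m => algebraMap κ K (L ((1 : κ) ⊗ₜ[C.S0 A] (N.mkQ m)))
        map_zero' := by simp
        map_add' := fun a b => by simp [TensorProduct.tmul_add] }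
    have hlam : ∀ (s : C.S0 A) (m : P.I), lam (s • m) = C.pt0 K Q (C.map0 f s) * lam m := by
      intro s m
      rw [hΦ]
      show algebraMap κ K (L ((1 : κ) ⊗ₜ N.mkQ (s • m))) =
        algebraMap (C.S0 A) K s * algebraMap κ K (L ((1 : κ) ⊗ₜ N.mkQ m))
      rw [map_smul, TensorProduct.tmul_smul, ← algebraMap_smul κ s ((1 : κ) ⊗ₜ[C.S0 A] N.mkQ m),
        map_smul, smul_eq_mul, map_mul, ← IsScalarTower.algebraMap_apply]
    have h0 : lam t = 0 := by
      show algebraMap κ K (L ((1 : κ) ⊗ₜ N.mkQ t)) = 0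
      rw [show N.mkQ t = 0 from (Submodule.Quotient.mk_eq_zero N).2 (Submodule.subset_span rfl),
        TensorProduct.tmul_zero, map_zero, map_zero]
    have hz := ht lam hlam h0
    induction y using TensorProduct.induction_on with
    | zero => simp
    | add a b ha hb => rw [map_add, ha, hb, add_zero]
    | tmul c q =>
      obtain ⟨m, rfl⟩ := N.mkQ_surjective q
      rw [show c ⊗ₜ[C.S0 A] N.mkQ m = c • ((1 : κ) ⊗ₜ[C.S0 A] N.mkQ m) by
        rw [TensorProduct.smul_tmul', smul_eq_mul, mul_one], map_smul,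
        (map_eq_zero (algebraMap κ K)).1 (DFunLike.congr_fun hz m), smul_zero]
  rw [Module.notMem_support_iff'] at hsupp
  refine ⟨t, t.2, fun i hi => ?_⟩
  obtain ⟨u, hu, hmem⟩ := hsupp (N.mkQ ⟨i, hi⟩)
  refine ⟨u, hu, ?_⟩
  rw [← map_smul, Submodule.mkQ_apply, Submodule.Quotient.mk_eq_zero,
    Submodule.mem_span_singleton] at hmem
  obtain ⟨h, hh⟩ := hmem
  exact ⟨h, (congrArg Subtype.val hh).symm⟩

/-- **Invertibility**: the monic element is a combination `∑ a i * b i` with `b i I ⊆ (χ)`. -/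
theorem exists_dual :
    ∃ (n : ℕ) (a b : Fin n → C.S0 A), (∀ i, a i ∈ P.I) ∧
      ∑ i, a i * b i = Polynomial.aeval (C.xA A) P.chi ∧
      ∀ i, ∀ m ∈ P.I, ∃ s, b i * m = Polynomial.aeval (C.xA A) P.chi * s := by
  classical
  set χ := Polynomial.aeval (C.xA A) P.chi
  set J : Ideal (C.S0 A) := (Ideal.span {χ}).colon (P.I : Set (C.S0 A))
  have hJ : ∀ {b}, b ∈ J ↔ ∀ m ∈ P.I, ∃ s, b * m = χ * s :=
    Submodule.mem_colon.trans (forall₂_congr fun _ _ => Ideal.mem_span_singleton)
  have hχ : χ ∈ P.I * J := by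
    set T : Ideal (C.S0 A) := Submodule.comap (LinearMap.mulRight (C.S0 A) χ) (P.I * J)
    suffices h : T = ⊤ by
      have h1 : (1 : C.S0 A) ∈ T := h ▸ Submodule.mem_top
      simpa [T] using h1
    by_contra hne
    obtain ⟨p, hp, hTp⟩ := Ideal.exists_le_maximal T hne
    have := hp.isPrime
    obtain ⟨t, ht, hloc⟩ := P.exists_principal_at p
    obtain ⟨G, hG⟩ := P.ideal_fg
    choose U hU H hUH using hloc
    -- one denominator for all generators
    have hGI : ∀ x ∈ G, x ∈ P.I := fun x hx => hG ▸ Submodule.subset_span hx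
    set u := ∏ x ∈ G.attach, U x.1 (hGI x.1 x.2)
    have hu : u ∉ p := fun h => by
      obtain ⟨x, -, hx⟩ := (hp.isPrime.prod_mem_iff).1 h
      exact hU _ _ hx
    have hall : ∀ m ∈ P.I, ∃ v, u * m = v * t := by
      suffices h : P.I ≤ Submodule.comap (LinearMap.mulLeft (C.S0 A) u) (Ideal.span {t}) from
        fun m hm => (Ideal.mem_span_singleton'.1 (h hm)).imp fun _ => Eq.symm
      rw [← hG, Submodule.span_le]
      refine fun x hx => Ideal.mem_span_singleton'.2
        ⟨(∏ y ∈ G.attach.erase ⟨x, hx⟩, U y.1 (hGI y.1 y.2)) * H x (hGI x hx), Eq.symm ?_⟩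
      show u * x = _
      simp only [u]
      rw [← Finset.mul_prod_erase _ _ (Finset.mem_attach G ⟨x, hx⟩), mul_assoc _ _ t,
        ← hUH x (hGI x hx)]
      ring
    obtain ⟨v, hv⟩ := hall χ P.chi_mem
    have hb : v * u ∈ J := hJ.2 fun m hm => by
      obtain ⟨w, hw⟩ := hall m hm
      exact ⟨u * w, by rw [mul_assoc, hw, mul_comm w t, ← mul_assoc, ← hv]; ring⟩
    have hT : u * u ∈ T := by
      show u * u * χ ∈ P.I * J
      rw [show u * u * χ = t * (v * u) by rw [mul_assoc, hv]; ring]
      exact Ideal.mul_mem_mul ht hb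
    exact hu ((hp.isPrime.mem_or_mem (hTp hT)).elim id id)
  rw [Submodule.mul_eq_span_mul_set, Submodule.mem_span_set'] at hχ
  obtain ⟨n, c, z, hz⟩ := hχ
  choose a ha b hb hab using fun i => Set.mem_mul.1 (z i).2
  exact ⟨n, fun i => c i * a i, b, fun i => P.I.mul_mem_left _ (ha i),
    (Finset.sum_congr rfl fun i _ => by rw [← hab i, smul_eq_mul, mul_assoc]).trans hz,
    fun i => hJ.1 (hb i)⟩

end FermatAgent.Pic.HilbPoint
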