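import Fermat.Agent.Pic.Hilb.Univ
import Fermat.Agent.Pic.Hilb.Ideal
import Mathlib.RingTheory.Idempotents
import Mathlib.RingTheory.Smooth.Basic
import Mathlib.LinearAlgebra.TensorProduct.RightExactness

/-!
# The Hilbert chart is smooth

Points of the chart lift along square-zero extensions: the ideal of a point is the image of an
idempotent matrix, and idempotent matrices lift.
-/

set_option autoImplicit false

noncomputable section

universe u

open scoped TensorProduct Matrix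

namespace FermatAgent.Pic

variable {k : Type u} [Field k] {C : Curve2 k} {g : ℕ} {B : Fin g → C.R0}
  {A : Type u} [CommRing A] [Algebra k A]

variable (C) in
/-- The chart of a quotient is the quotient of the chart by the extended ideal. -/
theorem Curve2.ker_map0_mk (J : Ideal A) :
    RingHom.ker (C.map0 (Ideal.Quotient.mkₐ k J)) =
      J.map (Algebra.TensorProduct.includeLeft : A →ₐ[k] C.S0 A) :=
  (Algebra.TensorProduct.rTensor_ker (Ideal.Quotient.mkₐ k J)
    (Ideal.Quotient.mkₐ_surjective k J)).trans (congrArg _ (Ideal.Quotient.mkₐ_ker k J))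

variable (C) in
theorem Curve2.map0_mk_surjective (J : Ideal A) :
    Function.Surjective (C.map0 (Ideal.Quotient.mkₐ k J)) :=
  Algebra.TensorProduct.map_surjective _ _ (Ideal.Quotient.mkₐ_surjective k J)
    Function.surjective_id

variable (C) in
theorem Curve2.mul_eq_zero_of_map0_mk {J : Ideal A} (hJ : J ^ 2 = ⊥) {x y : C.S0 A}
    (hx : C.map0 (Ideal.Quotient.mkₐ k J) x = 0) (hy : C.map0 (Ideal.Quotient.mkₐ k J) y = 0) :
    x * y = 0 := by
  rw [← RingHom.mem_ker, C.ker_map0_mk] at hx hy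
  have h := Ideal.mul_mem_mul hx hy
  rw [← Ideal.map_mul, ← pow_two, hJ, Ideal.map_bot] at h
  exact Submodule.mem_bot _ |>.1 h

namespace HilbPoint

/-- The coordinates lift to a linear map. -/
private theorem exists_coord_lift (J : Ideal A) (P0 : HilbPoint C B (A ⧸ J)) :
    ∃ Λ : C.S0 A →ₗ[A] (Fin g → A), ∀ s i, Ideal.Quotient.mkₐ k J (Λ s i) =
      P0.coord (C.map0 (Ideal.Quotient.mkₐ k J) s) i := by
  set q := Ideal.Quotient.mkₐ k J
  obtain ⟨ψ, hψ⟩ := ((q.toLinearMap.compLeft (Fin g)).exists_rightInverse_of_surjective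
    (LinearMap.range_eq_top.2 fun c => ⟨fun i => Function.surjInv
      (Ideal.Quotient.mkₐ_surjective k J) (c i), funext fun i => Function.surjInv_eq _ _⟩))
  let Λ : C.S0 A →ₗ[A] (Fin g → A) := (ψ.comp
    ((P0.coord.restrictScalars k).comp (TensorProduct.mk k (A ⧸ J) C.R0 1))).liftBaseChange A
  refine ⟨Λ, fun s i => ?_⟩
  induction s using TensorProduct.induction_on with
  | zero => simp
  | add x y hx hy => rw [map_add, Pi.add_apply, map_add, hx, hy, map_add, map_add, Pi.add_apply]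
  | tmul x r =>
    have h := congrFun (LinearMap.congr_fun hψ (P0.coord ((1 : A ⧸ J) ⊗ₜ[k] r))) i
    rw [show C.map0 q (x ⊗ₜ r) = q x • ((1 : A ⧸ J) ⊗ₜ[k] r) by
      simp only [map0_eq_map, TensorProduct.smul_tmul', smul_eq_mul, mul_one], map_smul,
      Pi.smul_apply, smul_eq_mul]
    simp only [Λ, LinearMap.liftBaseChange_tmul, Pi.smul_apply, smul_eq_mul, map_mul]
    congr 1

/-- Coordinates exist modulo a lift of the ideal. -/
private theorem exists_sub_mem_lift {J : Ideal A} (hJ : J ^ 2 = ⊥) {P0 : HilbPoint C B (A ⧸ J)}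
    {I : Ideal (C.S0 A)} (hI : I.map (C.map0 (Ideal.Quotient.mkₐ k J)).toRingHom = P0.I)
    (s : C.S0 A) : ∃ c : Fin g → A, s - ∑ l, c l ⊗ₜ[k] B l ∈ I := by
  set q := Ideal.Quotient.mkₐ k J
  set Q := C.map0 q
  have hmod : ∀ s : C.S0 A, ∃ c : Fin g → A, ∃ i ∈ I, Q (s - ∑ l, c l ⊗ₜ[k] B l - i) = 0 := by
    intro s
    set c : Fin g → A :=
      fun l => Function.surjInv (Ideal.Quotient.mkₐ_surjective k J) (P0.coord (Q s) l)
    refine ⟨c, ?_⟩
    have h : Q (s - ∑ l, c l ⊗ₜ[k] B l) ∈ I.map Q.toRingHom := by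
      rw [hI, map_sub, map_sum]
      simp only [Q, map0_eq_map, c, Function.surjInv_eq, q]
      exact P0.sub_coord_mem _
    obtain ⟨i, hi, hi'⟩ := (Ideal.mem_map_iff_of_surjective _ (C.map0_mk_surjective J)).1 h
    exact ⟨i, hi, by rw [map_sub, ← hi']; exact sub_self _⟩
  have hKB : ∀ z ∈ J.map (Algebra.TensorProduct.includeLeft : A →ₐ[k] C.S0 A), ∀ s,
      ∃ c : Fin g → A, s * z - ∑ l, c l ⊗ₜ[k] B l ∈ I := by
    intro z hz
    induction hz using Submodule.span_induction with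
    | mem z hz =>
      obtain ⟨j, hjJ, rfl⟩ := hz
      intro s
      obtain ⟨c, i, hi, h0⟩ := hmod s
      refine ⟨fun l => j * c l, ?_⟩
      have h1 : j • (s - ∑ l, c l ⊗ₜ[k] B l - i) = 0 := by
        rw [Algebra.smul_def]
        refine C.mul_eq_zero_of_map0_mk hJ ?_ h0
        rw [← RingHom.mem_ker, C.ker_map0_mk]
        exact Ideal.mem_map_of_mem _ hjJ
      rw [smul_sub, smul_sub, sub_eq_zero, Finset.smul_sum] at h1
      simp only [TensorProduct.smul_tmul', smul_eq_mul] at h1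
      rw [show s * (Algebra.TensorProduct.includeLeft : A →ₐ[k] C.S0 A) j = j • s by
        rw [Algebra.smul_def, mul_comm]; rfl, h1]
      exact Submodule.smul_of_tower_mem I j hi
    | zero => exact fun s => ⟨0, by simp⟩
    | add x y _ _ hx hy =>
      intro s
      obtain ⟨c, hc⟩ := hx s
      obtain ⟨d, hd⟩ := hy s
      refine ⟨c + d, ?_⟩
      convert add_mem hc hd using 1
      simp only [Pi.add_apply, TensorProduct.add_tmul, Finset.sum_add_distrib, mul_add]
      abel
    | smul w x _ hx =>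
      intro s
      rw [smul_eq_mul, ← mul_assoc]
      exact hx (s * w)
  obtain ⟨c, i, hi, h0⟩ := hmod s
  rw [← RingHom.mem_ker, C.ker_map0_mk] at h0
  obtain ⟨d, hd⟩ := hKB _ h0 1
  refine ⟨c + d, ?_⟩
  convert add_mem hd hi using 1
  simp only [Pi.add_apply, TensorProduct.add_tmul, Finset.sum_add_distrib, one_mul]
  abel

/-- Coordinates are unique modulo an ideal spanned by a vector fixed by a suitable matrix. -/
private theorem eq_zero_of_sum_mem_lift {J : Ideal A} (hJ : J ^ 2 = ⊥)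
    {P0 : HilbPoint C B (A ⧸ J)} {Λ : C.S0 A →ₗ[A] (Fin g → A)}
    (hΛ : ∀ s i, Ideal.Quotient.mkₐ k J (Λ s i) =
      P0.coord (C.map0 (Ideal.Quotient.mkₐ k J) s) i)
    {n : ℕ} {α : Fin n → C.S0 A} {e : Matrix (Fin n) (Fin n) (C.S0 A)} (hαe : α ᵥ* e = α)
    (hI : ∀ x ∈ Ideal.span (Set.range α), C.map0 (Ideal.Quotient.mkₐ k J) x ∈ P0.I)
    (hev : ∀ v, C.map0 (Ideal.Quotient.mkₐ k J) (α ⬝ᵥ v) = 0 →
      ∀ i, C.map0 (Ideal.Quotient.mkₐ k J) ((e *ᵥ v) i) = 0)
    {c : Fin g → A} (hc : ∑ l, c l ⊗ₜ[k] B l ∈ Ideal.span (Set.range α)) : c = 0 := by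
  set q := Ideal.Quotient.mkₐ k J
  set Q := C.map0 q
  have hq : ∀ j : A, q j = 0 ↔ j ∈ J := fun j => Ideal.Quotient.eq_zero_iff_mem
  have hJ2 : ∀ {x y : A}, x ∈ J → y ∈ J → x * y = 0 := fun hx hy => by
    have h2 := Ideal.mul_mem_mul hx hy
    rw [← pow_two, hJ] at h2
    exact h2
  have hΛI : ∀ z ∈ J.map (Algebra.TensorProduct.includeLeft : A →ₐ[k] C.S0 A),
      ∀ x ∈ Ideal.span (Set.range α), Λ (x * z) = 0 := by
    intro z hz
    induction hz using Submodule.span_induction with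
    | mem z hz =>
      obtain ⟨j, hjJ, rfl⟩ := hz
      intro x hx
      rw [show x * (Algebra.TensorProduct.includeLeft : A →ₐ[k] C.S0 A) j = j • x by
        rw [Algebra.smul_def, mul_comm]; rfl, map_smul]
      funext i
      exact hJ2 hjJ ((hq _).1 (by rw [hΛ, P0.coord_eq_zero_iff.2 (hI x hx)]; rfl))
    | zero => intro x _; simp
    | add y y' _ _ hy hy' => intro x hx; rw [mul_add, map_add, hy x hx, hy' x hx, add_zero]
    | smul w y _ hy =>
      intro x hx
      rw [smul_eq_mul, ← mul_assoc]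
      exact hy _ (Ideal.mul_mem_right w _ hx)
  have hQB : Q (∑ l, c l ⊗ₜ[k] B l) = ∑ l, q (c l) ⊗ₜ[k] B l := by
    simp only [Q, map_sum, map0_eq_map]
  have hqc : ∀ l, q (c l) = 0 := fun l => by
    have h := P0.coord_eq (s := 0) (c := fun l => q (c l)) (by
      rw [zero_sub, neg_mem_iff, ← hQB]
      exact hI _ hc)
    rw [map_zero] at h
    exact (congrFun h l).symm
  obtain ⟨v, hv⟩ := (Submodule.mem_span_range_iff_exists_fun _).1 hc
  have hv' : α ⬝ᵥ v = ∑ l, c l ⊗ₜ[k] B l := by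
    rw [← hv]
    exact Finset.sum_congr rfl fun i _ => mul_comm _ _
  have hev' := hev v (by
    rw [hv', hQB]
    simp only [hqc, TensorProduct.zero_tmul, Finset.sum_const_zero])
  have h0 : Λ (∑ l, c l ⊗ₜ[k] B l) = 0 := by
    rw [← hv', ← hαe, ← Matrix.dotProduct_mulVec, dotProduct, map_sum]
    exact Finset.sum_eq_zero fun i _ => hΛI _
      (by rw [← C.ker_map0_mk]; exact hev' i) _ (Ideal.subset_span ⟨i, rfl⟩)
  rw [← h0, map_sum]
  funext i
  rw [Finset.sum_apply]
  have hl : ∀ l, Λ (c l ⊗ₜ[k] B l) i = c l * (if i = l then 1 else 0) := by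
    intro l
    rw [show c l ⊗ₜ[k] B l = c l • ((1 : A) ⊗ₜ[k] B l) by
      rw [TensorProduct.smul_tmul', smul_eq_mul, mul_one], map_smul, Pi.smul_apply, smul_eq_mul,
      ← sub_eq_zero, ← mul_sub]
    refine hJ2 ((hq _).1 (hqc l)) ((hq _).1 ?_)
    rw [map_sub, hΛ, show Q ((1 : A) ⊗ₜ[k] B l) = (1 : A ⧸ J) ⊗ₜ[k] B l by
      simp only [Q, map0_eq_map, map_one], P0.coord_basis, Pi.single_apply, apply_ite q,
      map_one, map_zero, sub_self]
  simp [hl]

variable [IsAlgClosed k]

/-- The ideal of a point is spanned by a vector fixed by an idempotent matrix which kills its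
relations. -/
private theorem exists_idempotent_gen (P : HilbPoint C B A) :
    ∃ (n : ℕ) (a : Fin n → C.S0 A) (e : Matrix (Fin n) (Fin n) (C.S0 A)),
      (∀ i, a i ∈ P.I) ∧ a ᵥ* e = a ∧ IsIdempotentElem e ∧
      (∀ m ∈ P.I, ∃ v, m = a ⬝ᵥ v) ∧ ∀ v, a ⬝ᵥ v = 0 → e *ᵥ v = 0 := by
  obtain ⟨n, a, b, ha, hsum, hdiv⟩ := P.exists_dual
  set χ := Polynomial.aeval (C.xA A) P.chi
  have hreg : ∀ {s t : C.S0 A}, χ * s = χ * t → s = t := fun {s t} h =>
    sub_eq_zero.1 (C.eq_zero_of_monic_mul _ P.chi_monic (by rw [mul_sub, sub_eq_zero]; exact h))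
  choose e' he' using fun i j => hdiv i (a j) (ha j)
  have he : ∀ i j, χ * Matrix.of e' i j = b i * a j := fun i j => (he' i j).symm
  refine ⟨n, a, Matrix.of e', ha, funext fun j => hreg ?_, ?_, fun m hm => ?_, fun v hv => ?_⟩
  · show χ * (∑ i, a i * Matrix.of e' i j) = χ * a j
    conv_rhs => rw [← hsum, Finset.sum_mul]
    rw [Finset.mul_sum]
    refine Finset.sum_congr rfl fun i _ => ?_
    rw [mul_left_comm, he]
    ring
  · ext i j
    refine hreg (hreg ?_)
    calc χ * (χ * (Matrix.of e' * Matrix.of e') i j)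
        = ∑ l, (χ * Matrix.of e' i l) * (χ * Matrix.of e' l j) := by
          rw [Matrix.mul_apply, Finset.mul_sum, Finset.mul_sum]
          exact Finset.sum_congr rfl fun l _ => by ring
      _ = b i * (∑ l, a l * b l) * a j := by
          rw [Finset.mul_sum, Finset.sum_mul]
          exact Finset.sum_congr rfl fun l _ => by rw [he, he]; ring
      _ = χ * (χ * Matrix.of e' i j) := by rw [hsum, he]; ring
  · choose v hv using fun i => hdiv i m hm
    refine ⟨v, hreg ?_⟩
    conv_lhs => rw [← hsum, Finset.sum_mul]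
    rw [dotProduct, Finset.mul_sum]
    refine Finset.sum_congr rfl fun i _ => ?_
    rw [mul_assoc, hv]
    ring
  · refine funext fun i => hreg ?_
    show χ * (∑ l, Matrix.of e' i l * v l) = χ * 0
    rw [mul_zero, ← mul_zero (b i), ← hv, dotProduct, Finset.mul_sum, Finset.mul_sum]
    exact Finset.sum_congr rfl fun l _ => by rw [← mul_assoc, he, mul_assoc]

/-- The generators of the ideal and their idempotent matrix lift. -/
private theorem exists_gen_lift {J : Ideal A} (hJ : J ^ 2 = ⊥) (P0 : HilbPoint C B (A ⧸ J)) :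
    ∃ (n : ℕ) (α : Fin n → C.S0 A) (e : Matrix (Fin n) (Fin n) (C.S0 A)), α ᵥ* e = α ∧
      (Ideal.span (Set.range α)).map (C.map0 (Ideal.Quotient.mkₐ k J)).toRingHom = P0.I ∧
      ∀ v, C.map0 (Ideal.Quotient.mkₐ k J) (α ⬝ᵥ v) = 0 →
        ∀ i, C.map0 (Ideal.Quotient.mkₐ k J) ((e *ᵥ v) i) = 0 := by
  classical
  set Q := C.map0 (Ideal.Quotient.mkₐ k J)
  have hQ : Function.Surjective Q := C.map0_mk_surjective J
  obtain ⟨n, a, e0, ha, hae0, hidem, hspan, hker⟩ := P0.exists_idempotent_gen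
  obtain ⟨e, he, hee0⟩ := exists_isIdempotentElem_eq_of_ker_isNilpotent
    (Q.toRingHom.mapMatrix (m := Fin n)) (fun M hM => ⟨2, by
      have hM' : ∀ i j, Q (M i j) = 0 := fun i j => congrFun (congrFun hM i) j
      ext i j
      rw [pow_two, Matrix.mul_apply, Matrix.zero_apply]
      exact Finset.sum_eq_zero fun l _ => C.mul_eq_zero_of_map0_mk hJ (hM' i l) (hM' l j)⟩)
    e0 ⟨e0.map (Function.surjInv hQ), by
      ext i j
      exact Function.surjInv_eq hQ _⟩ hidem
  have hQe : ∀ i j, Q (e i j) = e0 i j := fun i j => congrFun (congrFun hee0 i) j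
  set α : Fin n → C.S0 A := (fun i => Function.surjInv hQ (a i)) ᵥ* e
  have hQα : ∀ j, Q (α j) = a j := fun j => by
    conv_rhs => rw [← hae0]
    simp only [α, Matrix.vecMul, dotProduct, map_sum, map_mul, hQe, Function.surjInv_eq hQ]
  refine ⟨n, α, e, by rw [Matrix.vecMul_vecMul, he], ?_, fun v hv i => ?_⟩
  · rw [Ideal.map_span, ← Set.range_comp]
    refine le_antisymm (Ideal.span_le.2 ?_) fun m hm => ?_
    · rintro _ ⟨j, rfl⟩
      show Q (α j) ∈ P0.I
      rw [hQα]
      exact ha j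
    · obtain ⟨v, rfl⟩ := hspan m hm
      exact Ideal.sum_mem _ fun i _ => Ideal.mul_mem_right _ _
        (Ideal.subset_span ⟨i, hQα i⟩)
  · simp only [dotProduct, map_sum, map_mul, hQα] at hv
    have h := congrFun (hker (fun l => Q (v l)) hv) i
    simpa only [Matrix.mulVec, dotProduct, map_sum, map_mul, hQe, Pi.zero_apply] using h

/-- **Points of the chart lift along square-zero extensions.** -/
theorem exists_map_mk_eq (J : Ideal A) (hJ : J ^ 2 = ⊥) (P0 : HilbPoint C B (A ⧸ J)) :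
    ∃ P : HilbPoint C B A, P.map (Ideal.Quotient.mkₐ k J) = P0 := by
  obtain ⟨n, α, e, hαe, hmap, hev⟩ := exists_gen_lift hJ P0
  obtain ⟨Λ, hΛ⟩ := exists_coord_lift J P0
  have hI0 : ∀ x ∈ Ideal.span (Set.range α), C.map0 (Ideal.Quotient.mkₐ k J) x ∈ P0.I :=
    fun x hx => hmap ▸ Ideal.mem_map_of_mem (C.map0 (Ideal.Quotient.mkₐ k J)).toRingHom hx
  refine ⟨⟨Ideal.span (Set.range α), fun s => ?_⟩, HilbPoint.ext (by rw [map_I]; exact hmap)⟩
  obtain ⟨c, hc⟩ := exists_sub_mem_lift hJ hmap s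
  refine ⟨c, hc, fun c' hc' => ?_⟩
  rw [← sub_eq_zero]
  refine eq_zero_of_sum_mem_lift hJ hΛ hαe hI0 hev ?_
  convert sub_mem hc hc' using 1
  simp only [Pi.sub_apply, TensorProduct.sub_tmul, Finset.sum_sub_distrib]
  abel

end HilbPoint

variable (C B) in
/-- **The chart is formally smooth.** -/
theorem hilbRing_formallySmooth [IsAlgClosed k] : Algebra.FormallySmooth k (HilbRing C B) := by
  refine Algebra.FormallySmooth.of_comp_surjective ?_
  intro A _ _ J hJ f
  obtain ⟨P, hP⟩ := HilbPoint.exists_map_mk_eq J hJ (hilbEquiv B (A ⧸ J) f)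
  refine ⟨(hilbEquiv B A).symm P, (hilbEquiv B (A ⧸ J)).injective ?_⟩
  rw [hilbEquiv_comp, Equiv.apply_symm_apply]
  exact hP

variable (C B) in
/-- **The chart is smooth.** -/
theorem hilbRing_smooth [IsAlgClosed k] : Algebra.Smooth k (HilbRing C B) where
  formallySmooth := hilbRing_formallySmooth C B
  finitePresentation := hilbRing_finitePresentation B

end FermatAgent.Pic
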