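import Fermat.Agent.Pic.Hilb.Basic

/-!
# The representing algebra of the Hilbert chart

Commuting matrices satisfying the relations of a presentation of the coordinate ring, with the
equations of a cyclic vector, cut out a finitely presented algebra with the universal point.
-/

set_option autoImplicit false

noncomputable section

universe u

open scoped TensorProduct Matrix IsMulCommutative

namespace FermatAgent.Pic

variable {k : Type u} [Field k] (C : Curve2 k)

/-- A presentation of the first coordinate ring by generators, relations and lifts. -/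
structure GenPres : Type u where
  /-- number of generators -/
  n : ℕ
  /-- the generators -/
  gen : MvPolynomial (Fin n) k →ₐ[k] C.R0
  gen_surj : Function.Surjective gen
  /-- the relations, as noncommutative polynomials -/
  rels : Finset (FreeAlgebra k (Fin n))
  ker_eq : RingHom.ker gen.toRingHom =
    Ideal.span ((FreeAlgebra.lift k (MvPolynomial.X (R := k))) '' (rels : Set _))
  /-- noncommutative lifts -/
  sect : C.R0 → FreeAlgebra k (Fin n)
  gen_sect : ∀ r, gen (FreeAlgebra.lift k (MvPolynomial.X (R := k)) (sect r)) = r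

theorem freeAlgebra_lift_X_surjective (n : ℕ) :
    Function.Surjective (FreeAlgebra.lift k (MvPolynomial.X (R := k) (σ := Fin n))) :=
  (AlgHom.range_eq_top _).1 <| top_unique <| MvPolynomial.adjoin_range_X.symm.trans_le <|
    Algebra.adjoin_le <| by rintro _ ⟨i, rfl⟩; exact ⟨FreeAlgebra.ι k i, by simp⟩

theorem map_freeAlgebra_lift {S T : Type*} [Semiring S] [Algebra k S] [Semiring T] [Algebra k T]
    {n : ℕ} (f : S →ₐ[k] T) (M : Fin n → S) (v : FreeAlgebra k (Fin n)) :
    f (FreeAlgebra.lift k M v) = FreeAlgebra.lift k (fun l => f (M l)) v :=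
  DFunLike.congr_fun (FreeAlgebra.hom_ext (funext fun l => by simp) :
    f.comp (FreeAlgebra.lift k M) = _) v

theorem exists_genPres : Nonempty (GenPres C) := by
  classical
  have := C.smooth0.finitePresentation
  obtain ⟨n, π, hπ, ⟨G, hG⟩⟩ := ‹Algebra.FinitePresentation k C.R0›.out
  have hs := freeAlgebra_lift_X_surjective (k := k) n
  exact ⟨{
    n := n
    gen := π
    gen_surj := hπ
    rels := G.image (Function.surjInv hs)
    ker_eq := by
      rw [Finset.coe_image, ← Set.image_comp]
      simp only [Function.comp_def, Function.surjInv_eq hs, Set.image_id']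
      exact hG.symm
    sect := fun r => Function.surjInv hs (Function.surjInv hπ r)
    gen_sect := fun r => by rw [Function.surjInv_eq hs, Function.surjInv_eq hπ] }⟩

/-- A chosen presentation. -/
def genPres : GenPres C := (exists_genPres C).some

variable {C} {g : ℕ} {A A' : Type u} [CommRing A] [Algebra k A] [CommRing A'] [Algebra k A']

namespace GenPres

variable (Q : GenPres C)

/-- Commuting matrices satisfying the relations give a homomorphism. -/
theorem exists_hom (M : Fin Q.n → Matrix (Fin g) (Fin g) A) (hc : ∀ l l', M l * M l' = M l' * M l)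
    (hr : ∀ w ∈ Q.rels, FreeAlgebra.lift k M w = 0) :
    ∃ φ : C.R0 →ₐ[k] Matrix (Fin g) (Fin g) A, ∀ v,
      φ (Q.gen (FreeAlgebra.lift k MvPolynomial.X v)) = FreeAlgebra.lift k M v := by
  have := Algebra.isMulCommutative_adjoin (R := k) (s := Set.range M) (by
    rintro _ ⟨l, rfl⟩ _ ⟨l', rfl⟩; exact hc l l')
  set S := Algebra.adjoin k (Set.range M)
  let Ψ : MvPolynomial (Fin Q.n) k →ₐ[k] S :=
    MvPolynomial.aeval fun l => ⟨M l, Algebra.subset_adjoin ⟨l, rfl⟩⟩
  have hΨ : ∀ v, S.val (Ψ (FreeAlgebra.lift k MvPolynomial.X v)) = FreeAlgebra.lift k M v :=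
    fun v => (map_freeAlgebra_lift (S.val.comp Ψ) _ v).trans (by simp [Ψ])
  have hker : ∀ p : MvPolynomial (Fin Q.n) k, p ∈ RingHom.ker Q.gen.toRingHom → Ψ p = 0 := by
    suffices h : RingHom.ker Q.gen.toRingHom ≤ RingHom.ker Ψ.toRingHom from fun p hp => h hp
    rw [Q.ker_eq, Ideal.span_le]
    rintro _ ⟨w, hw, rfl⟩
    exact Subtype.ext ((hΨ w).trans (hr w hw))
  refine ⟨(S.val.comp (Ideal.Quotient.liftₐ _ Ψ hker)).comp
    (Ideal.quotientKerAlgEquivOfSurjective Q.gen_surj).symm.toAlgHom, fun v => ?_⟩
  set p := FreeAlgebra.lift k (MvPolynomial.X (R := k)) v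
  have h : (Ideal.quotientKerAlgEquivOfSurjective Q.gen_surj).symm (Q.gen p) =
      Ideal.Quotient.mk _ p := by
    rw [AlgEquiv.symm_apply_eq]
    rfl
  refine (congrArg (fun z => S.val (Ideal.Quotient.liftₐ (R₁ := k) _ Ψ hker z)) h).trans ?_
  exact hΨ v

/-- Homomorphisms are determined by the generators. -/
theorem hom_gen (φ : C.R0 →ₐ[k] Matrix (Fin g) (Fin g) A) (v : FreeAlgebra k (Fin Q.n)) :
    φ (Q.gen (FreeAlgebra.lift k MvPolynomial.X v)) =
      FreeAlgebra.lift k (fun l => φ (Q.gen (MvPolynomial.X l))) v :=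
  map_freeAlgebra_lift (φ.comp Q.gen) _ v

/-- Homomorphisms agreeing on the generators are equal. -/
theorem hom_ext {φ ψ : C.R0 →ₐ[k] Matrix (Fin g) (Fin g) A}
    (h : ∀ l, φ (Q.gen (MvPolynomial.X l)) = ψ (Q.gen (MvPolynomial.X l))) : φ = ψ :=
  AlgHom.ext fun r => by rw [← Q.gen_sect r, hom_gen, hom_gen]; simp only [h]

end GenPres

variable (C) in
/-- The indices of the universal entries. -/
abbrev HilbVar (g : ℕ) : Type := (Fin (genPres C).n × Fin g × Fin g) ⊕ Fin g

variable (C g) in
/-- The universal matrices. -/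
def uMat (l : Fin (genPres C).n) : Matrix (Fin g) (Fin g) (MvPolynomial (HilbVar C g) k) :=
  Matrix.of fun i j => MvPolynomial.X (Sum.inl (l, i, j))

variable (C g) in
/-- The universal vector. -/
def uVec : Fin g → MvPolynomial (HilbVar C g) k := fun i => MvPolynomial.X (Sum.inr i)

variable (C) in
/-- The equations of the chart. -/
def hilbEq (B : Fin g → C.R0) : Set (MvPolynomial (HilbVar C g) k) :=
  Set.range (fun t : (Fin (genPres C).n × Fin (genPres C).n) × Fin g × Fin g =>
      (uMat C g t.1.1 * uMat C g t.1.2 - uMat C g t.1.2 * uMat C g t.1.1) t.2.1 t.2.2) ∪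
    Set.range (fun t : (genPres C).rels × Fin g × Fin g =>
      FreeAlgebra.lift k (uMat C g) t.1.1 t.2.1 t.2.2) ∪
    Set.range (fun t : Fin g × Fin g =>
      (FreeAlgebra.lift k (uMat C g) ((genPres C).sect (B t.1)) *ᵥ uVec C g) t.2 -
        Pi.single (M := fun _ => MvPolynomial (HilbVar C g) k) t.1 1 t.2)

variable (C) in
/-- The representing algebra of the chart. -/
abbrev HilbRing (B : Fin g → C.R0) : Type u :=
  MvPolynomial (HilbVar C g) k ⧸ Ideal.span (hilbEq C B)

variable (B : Fin g → C.R0)

/-- The representing algebra is finitely presented over `k`. -/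
theorem hilbRing_finitePresentation : Algebra.FinitePresentation k (HilbRing C B) :=
  Algebra.FinitePresentation.quotient (Submodule.fg_span
    (((Set.finite_range _).union (Set.finite_range _)).union (Set.finite_range _)))

variable {B}

/-- Data over `A` as a point of the polynomial ring. -/
def hilbEval (D : MatData C B A) : MvPolynomial (HilbVar C g) k →ₐ[k] A :=
  MvPolynomial.aeval
    (Sum.elim (fun t => D.φ ((genPres C).gen (MvPolynomial.X t.1)) t.2.1 t.2.2) D.e)

theorem hilbEval_uMat (D : MatData C B A) (l : Fin (genPres C).n) :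
    (hilbEval D).mapMatrix (uMat C g l) = D.φ ((genPres C).gen (MvPolynomial.X l)) := by
  ext i j
  simp [hilbEval, uMat]

theorem hilbEval_eq_zero (D : MatData C B A) {p : MvPolynomial (HilbVar C g) k}
    (hp : p ∈ Ideal.span (hilbEq C B)) : hilbEval D p = 0 := by
  suffices h : Ideal.span (hilbEq C B) ≤ RingHom.ker (hilbEval D).toRingHom from h hp
  have hL : ∀ v, (hilbEval D).mapMatrix (FreeAlgebra.lift k (uMat C g) v) =
      D.φ ((genPres C).gen (FreeAlgebra.lift k MvPolynomial.X v)) := fun v => by
    rw [map_freeAlgebra_lift, GenPres.hom_gen]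
    simp only [hilbEval_uMat]
  rw [Ideal.span_le]
  rintro _ ((⟨⟨⟨l, l'⟩, i, j⟩, rfl⟩ | ⟨⟨⟨w, hw⟩, i, j⟩, rfl⟩) | ⟨⟨b, m⟩, rfl⟩) <;>
    rw [SetLike.mem_coe, RingHom.mem_ker]
  · show (hilbEval D).mapMatrix (uMat C g l * uMat C g l' - uMat C g l' * uMat C g l) i j = 0
    have hc : ∀ a b : C.R0, D.φ a * D.φ b = D.φ b * D.φ a := fun a b => by
      rw [← map_mul, mul_comm, map_mul]
    rw [map_sub, map_mul, map_mul, hilbEval_uMat, hilbEval_uMat, hc, sub_self]
    rfl
  · show (hilbEval D).mapMatrix (FreeAlgebra.lift k (uMat C g) w) i j = 0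
    rw [hL, show (genPres C).gen (FreeAlgebra.lift k MvPolynomial.X w) = 0 from
      (genPres C).ker_eq.symm.le (Ideal.subset_span ⟨w, hw, rfl⟩), map_zero]
    rfl
  · show hilbEval D (_ - _) = 0
    rw [map_sub, sub_eq_zero]
    have h := RingHom.map_mulVec (hilbEval D).toRingHom
      (FreeAlgebra.lift k (uMat C g) ((genPres C).sect (B b))) (uVec C g) m
    refine h.trans ?_
    have h1 : (FreeAlgebra.lift k (uMat C g) ((genPres C).sect (B b))).map (hilbEval D).toRingHom =
        D.φ (B b) := (hL _).trans (by rw [(genPres C).gen_sect])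
    have h2 : (hilbEval D).toRingHom ∘ uVec C g = D.e := funext fun i => by simp [hilbEval, uVec]
    rw [h1, h2, D.basis]
    simp [Pi.single_apply, apply_ite (hilbEval D)]

variable (B) in
/-- The class of a polynomial. -/
def hilbMk : MvPolynomial (HilbVar C g) k →ₐ[k] HilbRing C B := Ideal.Quotient.mkₐ k _

theorem hilbMk_eq_zero {p : MvPolynomial (HilbVar C g) k} (hp : p ∈ hilbEq C B) :
    hilbMk B p = 0 :=
  Ideal.Quotient.eq_zero_iff_mem.2 (Ideal.subset_span hp)

/-- The tautological matrices and vector give a point of the chart over the representing algebra. -/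
theorem exists_univData : ∃ D : MatData C B (HilbRing C B),
    (∀ l, D.φ ((genPres C).gen (MvPolynomial.X l)) = (hilbMk B).mapMatrix (uMat C g l)) ∧
      D.e = hilbMk B ∘ uVec C g := by
  obtain ⟨φ, hφ⟩ := (genPres C).exists_hom (A := HilbRing C B)
    (fun l => (hilbMk B).mapMatrix (uMat C g l)) (fun l l' => by
      rw [← sub_eq_zero, ← map_mul, ← map_mul, ← map_sub]
      ext i j
      exact hilbMk_eq_zero (Or.inl (Or.inl ⟨((l, l'), i, j), rfl⟩))) (fun w hw => by
      rw [← map_freeAlgebra_lift]
      ext i j
      exact hilbMk_eq_zero (Or.inl (Or.inr ⟨(⟨w, hw⟩, i, j), rfl⟩)))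
  refine ⟨⟨φ, hilbMk B ∘ uVec C g, fun b => funext fun m => ?_⟩, fun l => ?_, rfl⟩
  · have h0 := hilbMk_eq_zero (B := B) (Or.inr ⟨(b, m), rfl⟩)
    rw [map_sub, sub_eq_zero] at h0
    have h := RingHom.map_mulVec (hilbMk B).toRingHom
      (FreeAlgebra.lift k (uMat C g) ((genPres C).sect (B b))) (uVec C g) m
    rw [show φ (B b) = (FreeAlgebra.lift k (uMat C g) ((genPres C).sect (B b))).map (hilbMk B) from
      ((congrArg φ ((genPres C).gen_sect (B b)).symm).trans (hφ _)).trans
        (map_freeAlgebra_lift _ _ _).symm]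
    refine (h.symm.trans h0).trans ?_
    simp [Pi.single_apply, apply_ite (hilbMk B)]
  · have h := hφ (FreeAlgebra.ι k l)
    simpa using h

variable (B) in
/-- The universal data. -/
def univData : MatData C B (HilbRing C B) := exists_univData.choose

theorem univData_φ (l : Fin (genPres C).n) :
    (univData B).φ ((genPres C).gen (MvPolynomial.X l)) = (hilbMk B).mapMatrix (uMat C g l) :=
  (exists_univData (B := B)).choose_spec.1 l

theorem univData_e : (univData B).e = hilbMk B ∘ uVec C g :=
  (exists_univData (B := B)).choose_spec.2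

variable (B) in
/-- The universal point. -/
def univPoint : HilbPoint C B (HilbRing C B) := (univData B).toPoint

/-- The classifying homomorphism. -/
def HilbPoint.classify (P : HilbPoint C B A) : HilbRing C B →ₐ[k] A :=
  Ideal.Quotient.liftₐ _ (hilbEval P.toData) fun _ hp => hilbEval_eq_zero P.toData hp

theorem HilbPoint.classify_comp (P : HilbPoint C B A) :
    P.classify.comp (hilbMk B) = hilbEval P.toData := AlgHom.ext fun _ => rfl

/-- Every point is the image of the universal one under its classifying homomorphism. -/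
theorem HilbPoint.univ_map_classify (P : HilbPoint C B A) : (univPoint B).map P.classify = P := by
  apply HilbPoint.equivData.injective
  show ((univPoint B).map P.classify).toData = P.toData
  rw [toData_map, univPoint, toData_toPoint]
  refine MatData.ext ((genPres C).hom_ext fun l => ?_) ?_
  · show P.classify.mapMatrix ((univData B).φ ((genPres C).gen (MvPolynomial.X l))) = _
    rw [univData_φ]
    ext i j
    show P.classify (hilbMk B (uMat C g l i j)) = _
    rw [← AlgHom.comp_apply, classify_comp]
    simp [hilbEval, uMat]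
  · show P.classify ∘ (univData B).e = _
    rw [univData_e]
    funext i
    show P.classify (hilbMk B (uVec C g i)) = _
    rw [← AlgHom.comp_apply, classify_comp]
    simp [hilbEval, uVec]

/-- A homomorphism from the representing algebra is determined by the image of the universal
point. -/
theorem hilbHom_ext {f f' : HilbRing C B →ₐ[k] A}
    (h : (univPoint B).map f = (univPoint B).map f') : f = f' := by
  have h' := congrArg HilbPoint.toData h
  rw [HilbPoint.toData_map, HilbPoint.toData_map, univPoint, HilbPoint.toData_toPoint] at h'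
  refine Ideal.Quotient.algHom_ext _ (MvPolynomial.algHom_ext fun v => ?_)
  cases v with
  | inl t =>
    obtain ⟨l, i, j⟩ := t
    have := congrFun (congrFun (congrArg (fun D : MatData C B A =>
      D.φ ((genPres C).gen (MvPolynomial.X l))) h') i) j
    simpa [MatData.map, univData_φ, uMat, hilbMk] using this
  | inr i =>
    have := congrFun (congrArg MatData.e h') i
    simpa [MatData.map, univData_e, uVec, hilbMk] using this

/-- **The chart is representable.** -/
def hilbEquiv (B : Fin g → C.R0) (A : Type u) [CommRing A] [Algebra k A] :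
    (HilbRing C B →ₐ[k] A) ≃ HilbPoint C B A where
  toFun f := (univPoint B).map f
  invFun P := P.classify
  left_inv _ := hilbHom_ext (HilbPoint.univ_map_classify _)
  right_inv P := P.univ_map_classify

/-- The correspondence of homomorphisms and points is natural in the parameters. -/
theorem hilbEquiv_comp (f : HilbRing C B →ₐ[k] A) (h : A →ₐ[k] A') :
    hilbEquiv B A' (h.comp f) = (hilbEquiv B A f).map h :=
  (HilbPoint.map_map _ f h).symm

end FermatAgent.Pic
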